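/-
S55 / 22b-LOC-DEV (helper51): the "G-field" formulation of the multiplicative Galois module.
A finite group `Q` acting faithfully on a field `E` by ring automorphisms; the base field is
`FixedPoints.subfield Q E` (Artin).  This file: the representation `unitsRep Q E` on `Eˣ`,
fixed units / norm units, and Noether's form of Hilbert 90 (`H¹(Q, Eˣ) = 0`).
Mathlib only.
-/
import Mathlib

set_option autoImplicit false

namespace Fermat.Agent.S55.LocDev51

open CategoryTheory groupCohomology

attribute [local instance] Units.mulDistribMulActionRight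

variable (Q E : Type) [Group Q] [Field E] [MulSemiringAction Q E]

/-- The action of `Q` on the units of `E` (reducible: it is Mathlib's
`Units.mulDistribMulActionRight`). -/
@[reducible] def unitsAction : MulDistribMulAction Q Eˣ := Units.mulDistribMulActionRight

/-- The units of `E` as a `ℤ`-linear representation of `Q`. -/
noncomputable def unitsRep : Rep ℤ Q := Rep.ofMulDistribMulAction Q Eˣ

variable {Q E}

@[simp] lemma coe_smul_units (q : Q) (u : Eˣ) : ((q • u : Eˣ) : E) = q • (u : E) := rfl

/-- An element of the representation, read as a unit. -/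
def toU (x : unitsRep Q E) : Eˣ := Additive.toMul (Rep.toAdditive x)

/-- A unit, read as an element of the representation. -/
def ofU (u : Eˣ) : unitsRep Q E := Rep.toAdditive.symm (Additive.ofMul u)

@[simp] lemma toU_ofU (u : Eˣ) : toU (ofU (Q := Q) u) = u := rfl
@[simp] lemma ofU_toU (x : unitsRep Q E) : ofU (toU x) = x := rfl
lemma ofU_injective : Function.Injective (ofU : Eˣ → unitsRep Q E) := fun a b h => by
  simpa using congrArg toU h
lemma toU_injective : Function.Injective (toU : unitsRep Q E → Eˣ) := fun a b h => by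
  simpa using congrArg (ofU (Q := Q)) h
@[simp] lemma ofU_mul (u v : Eˣ) : ofU (Q := Q) (u * v) = ofU u + ofU v := rfl
@[simp] lemma ofU_one : ofU (Q := Q) (1 : Eˣ) = 0 := rfl
@[simp] lemma ofU_inv (u : Eˣ) : ofU (Q := Q) u⁻¹ = - ofU u := rfl
@[simp] lemma ofU_div (u v : Eˣ) : ofU (Q := Q) (u / v) = ofU u - ofU v := rfl
@[simp] lemma toU_add (x y : unitsRep Q E) : toU (x + y) = toU x * toU y := rfl
@[simp] lemma toU_zero : toU (0 : unitsRep Q E) = 1 := rfl
@[simp] lemma toU_neg (x : unitsRep Q E) : toU (-x) = (toU x)⁻¹ := rfl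
@[simp] lemma toU_sub (x y : unitsRep Q E) : toU (x - y) = toU x / toU y := rfl

lemma unitsRep_ρ_ofU (q : Q) (u : Eˣ) : (unitsRep Q E).ρ q (ofU u) = ofU (q • u) := rfl

lemma toU_unitsRep_ρ (q : Q) (x : unitsRep Q E) : toU ((unitsRep Q E).ρ q x) = q • toU x := rfl

variable (Q E)

/-- The units fixed by the whole group. -/
def fixedUnits : Subgroup Eˣ where
  carrier := {u | ∀ q : Q, q • u = u}
  one_mem' := fun q => smul_one q
  mul_mem' := fun {a b} ha hb q => by rw [smul_mul', ha q, hb q]
  inv_mem' := fun {a} ha q => by rw [smul_inv', ha q]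

variable {Q E} in
lemma mem_fixedUnits {u : Eˣ} : u ∈ fixedUnits Q E ↔ ∀ q : Q, q • u = u := Iff.rfl

/-- The norm map `u ↦ ∏ q, q • u` on units. -/
noncomputable def normHomUnits [Fintype Q] : Eˣ →* Eˣ where
  toFun u := ∏ q : Q, q • u
  map_one' := by simp
  map_mul' a b := by simp [smul_mul', Finset.prod_mul_distrib]

variable {Q E} in
lemma normHomUnits_apply [Fintype Q] (u : Eˣ) : normHomUnits Q E u = ∏ q : Q, q • u := rfl

/-- The subgroup of norms. -/
noncomputable def normUnits [Fintype Q] : Subgroup Eˣ := (normHomUnits Q E).range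

variable {Q E} in
lemma smul_normHomUnits [Fintype Q] (g : Q) (u : Eˣ) :
    g • normHomUnits Q E u = normHomUnits Q E u := by
  rw [normHomUnits_apply, Finset.smul_prod']
  simp_rw [← mul_smul]
  exact Fintype.prod_bijective (fun q => g * q) (Group.mulLeft_bijective g) _ _ (fun _ => rfl)

lemma normUnits_le_fixedUnits [Fintype Q] : normUnits Q E ≤ fixedUnits Q E := by
  rintro _ ⟨u, rfl⟩ q
  exact smul_normHomUnits q u

section Hilbert90

variable {Q E}
variable [Finite Q] [FaithfulSMul Q E]

/-- The monoid homomorphism `x ↦ q • x`. -/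
def actHom (q : Q) : E →* E := (MulSemiringAction.toRingHom Q E q : E →* E)

@[simp] lemma actHom_apply (q : Q) (x : E) : actHom q x = q • x := rfl

lemma actHom_injective : Function.Injective (actHom : Q → (E →* E)) := by
  intro a b h
  refine FaithfulSMul.eq_of_smul_eq_smul (α := E) fun x => ?_
  simpa using DFunLike.congr_fun h x

/-- Dedekind: the automorphisms `x ↦ q • x` are linearly independent over `E`. -/
lemma linearIndependent_act :
    LinearIndependent E (fun q : Q => ((actHom q : E →* E) : E → E)) :=
  LinearIndependent.comp (linearIndependent_monoidHom E E) actHom actHom_injective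

/-- **Noether's Hilbert 90**, G-field form: every multiplicative 1-cocycle `Q → Eˣ` is a
coboundary. -/
theorem isMulCoboundary₁_of_isMulCocycle₁ (f : Q → Eˣ) (hf : IsMulCocycle₁ f) :
    IsMulCoboundary₁ f := by
  classical
  haveI : Fintype Q := Fintype.ofFinite Q
  -- the function `z ↦ ∑ h, f h * h • z` is not identically zero
  have hne : ∃ z : E, (∑ h : Q, (f h : E) * h • z) ≠ 0 := by
    by_contra hcon
    push_neg at hcon
    have hli := Fintype.linearIndependent_iff.1 (linearIndependent_act (Q := Q) (E := E))
      (fun h => (f h : E)) (by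
        funext z
        simpa [Finset.sum_apply, Pi.smul_apply] using hcon z)
    exact Units.ne_zero (f 1) (hli 1)
  obtain ⟨z, hz⟩ := hne
  refine ⟨(Units.mk0 _ hz)⁻¹, fun g => ?_⟩
  have hcoc : ∀ h : Q, (f (g * h) : E) = g • (f h : E) * (f g : E) := fun h => by
    have := congrArg (fun u : Eˣ => (u : E)) (hf g h)
    simpa using this
  rw [smul_inv', div_inv_eq_mul, inv_mul_eq_iff_eq_mul]
  ext
  simp only [Units.val_mk0, Units.val_mul, coe_smul_units]
  rw [Finset.smul_sum, Finset.sum_mul]
  simp_rw [smul_mul', ← mul_smul]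
  have : ∀ h : Q, g • (f h : E) * (g * h) • z * (f g : E) = (f (g * h) : E) * (g * h) • z := by
    intro h; rw [hcoc h]; ring
  simp_rw [this]
  exact (Fintype.sum_bijective (fun h => g * h) (Group.mulLeft_bijective g) _ _
    (fun _ => rfl)).symm

variable (Q E)

/-- `H¹(Q, Eˣ) = 0` for a finite group acting faithfully on a field. -/
theorem H1_eq_zero (x : H1 (unitsRep Q E)) : x = 0 :=
  H1_induction_on x fun c => (H1π_eq_zero_iff _).2 <| by
    refine (coboundariesOfIsMulCoboundary₁ (G := Q) (M := Eˣ) ?_).2
    exact isMulCoboundary₁_of_isMulCocycle₁ c.1 (isMulCocycle₁_of_mem_cocycles₁ _ c.2)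

theorem isZero_H1 : Limits.IsZero (groupCohomology (unitsRep Q E) 1) := by
  haveI : Subsingleton (H1 (unitsRep Q E)) :=
    ⟨fun a b => by rw [H1_eq_zero Q E a, H1_eq_zero Q E b]⟩
  exact ModuleCat.isZero_of_subsingleton _

end Hilbert90

end Fermat.Agent.S55.LocDev51
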