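/-
S55 / 22b-LOC-DEV (helper51): `H²(Q, Eˣ)` for a finite cyclic group `Q` acting on a field `E`:
`|H²| = [fixed units : norms]` (Mathlib's periodic resolution, made explicit on units).
Mathlib only.
-/
import Fermat.Agent.S55.LocDev51.GField

set_option autoImplicit false

namespace Fermat.Agent.S55.LocDev51

open CategoryTheory groupCohomology Rep

attribute [local instance] Units.mulDistribMulActionRight

section Comm

variable (Q E : Type) [CommGroup Q] [Fintype Q] [Field E] [MulSemiringAction Q E]
variable (g : Q) (hg : ∀ x, x ∈ Subgroup.zpowers g)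

include hg in
lemma mem_fixedUnits_iff_generator (u : Eˣ) : u ∈ fixedUnits Q E ↔ g • u = u := by
  refine ⟨fun h => h g, fun h q => ?_⟩
  obtain ⟨n, rfl⟩ := Subgroup.mem_zpowers_iff.1 (hg q)
  have hinv : g⁻¹ • u = u := by
    conv_lhs => rw [← h]
    rw [← mul_smul, inv_mul_cancel, one_smul]
  induction n using Int.induction_on with
  | zero => simp
  | succ n ih => rw [zpow_add_one, mul_smul, h, ih]
  | pred n ih => rw [zpow_sub_one, mul_smul, hinv, ih]

lemma norm_unitsRep_ofU (u : Eˣ) :
    (Rep.Hom.hom (unitsRep Q E).norm) (ofU u) = ofU (normHomUnits Q E u) := by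
  have := Representation.norm_ofMulDistribMulAction_eq (G := Q) (M := Eˣ) (Additive.ofMul u)
  apply toU_injective
  rw [toU_ofU, normHomUnits_apply]
  exact this

/-- The canonical surjection `fixedUnits → H²(Q, Eˣ)` for cyclic `Q` (depends on the generator). -/
noncomputable def fixedToH2 :
    fixedUnits Q E →* Multiplicative (groupCohomology (unitsRep Q E) 2) where
  toFun u := Multiplicative.ofAdd
    ((ConcreteCategory.hom
      (Rep.FiniteCyclicGroup.groupCohomologyπEven (unitsRep Q E) g hg 2 (by decide)))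
      ⟨ofU (u : Eˣ), by
        have h := (mem_fixedUnits_iff_generator Q E g hg u.1).1 u.2
        rw [LinearMap.mem_ker]
        change (unitsRep Q E).ρ g (ofU (u : Eˣ)) - ofU (u : Eˣ) = 0
        rw [unitsRep_ρ_ofU, h, sub_self]⟩)
  map_one' := by
    rw [← ofAdd_zero]
    congr 1
    exact map_zero _
  map_mul' a b := by
    rw [← ofAdd_add, ← map_add]
    rfl

lemma fixedToH2_surjective : Function.Surjective (fixedToH2 Q E g hg) := by
  intro y
  have hepi : Epi (Rep.FiniteCyclicGroup.groupCohomologyπEven (unitsRep Q E) g hg 2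
      (by decide)) := by
    unfold Rep.FiniteCyclicGroup.groupCohomologyπEven
    infer_instance
  obtain ⟨x, hx⟩ := (ModuleCat.epi_iff_surjective _).1 hepi (Multiplicative.toAdd y)
  have hx1 : (unitsRep Q E).ρ g x.1 - x.1 = 0 := LinearMap.mem_ker.1 x.2
  refine ⟨⟨toU x.1, (mem_fixedUnits_iff_generator Q E g hg _).2 ?_⟩, ?_⟩
  · rw [sub_eq_zero] at hx1
    rw [← toU_unitsRep_ρ, hx1]
  · apply Multiplicative.toAdd.injective
    rw [← hx]
    rfl

lemma fixedToH2_ker :
    (fixedToH2 Q E g hg).ker = (normUnits Q E).subgroupOf (fixedUnits Q E) := by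
  ext u
  rw [MonoidHom.mem_ker, Subgroup.mem_subgroupOf]
  change Multiplicative.ofAdd _ = 1 ↔ _
  rw [ofAdd_eq_one, Rep.FiniteCyclicGroup.groupCohomologyπEven_eq_zero_iff]
  constructor
  · rintro ⟨a, ha⟩
    refine ⟨toU a, ?_⟩
    have h2 := norm_unitsRep_ofU Q E (toU a)
    rw [ofU_toU] at h2
    apply ofU_injective (Q := Q)
    rw [← h2]
    exact ha
  · rintro ⟨b, hb⟩
    refine ⟨ofU b, ?_⟩
    have h2 := norm_unitsRep_ofU Q E b
    rw [hb] at h2
    exact h2

/-- `|H²(Q, Eˣ)| = [fixed units : norms]` for a finite cyclic (commutative) group `Q`. -/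
theorem card_H2_comm (g : Q) (hg : ∀ x, x ∈ Subgroup.zpowers g) :
    Nat.card (groupCohomology (unitsRep Q E) 2) = (normUnits Q E).relIndex (fixedUnits Q E) := by
  have h1 := Subgroup.index_ker (fixedToH2 Q E g hg)
  rw [fixedToH2_ker, MonoidHom.range_eq_top.2 (fixedToH2_surjective Q E g hg)] at h1
  rw [Subgroup.relIndex, h1, Nat.card_congr Subgroup.topEquiv.toEquiv]
  exact Nat.card_congr Multiplicative.ofAdd

end Comm

section General

variable (Q E : Type) [Group Q] [Field E] [MulSemiringAction Q E]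

/-- `|H²(Q, Eˣ)| = [fixed units : norms]` for a finite cyclic group `Q` (plain `Group`
instance). -/
theorem card_H2_cyclic [Fintype Q] (g : Q) (hg : ∀ x, x ∈ Subgroup.zpowers g) :
    Nat.card (groupCohomology (unitsRep Q E) 2) = (normUnits Q E).relIndex (fixedUnits Q E) := by
  haveI : IsCyclic Q := ⟨g, hg⟩
  letI : CommGroup Q := IsCyclic.commGroup
  exact card_H2_comm Q E g hg

end General

end Fermat.Agent.S55.LocDev51
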