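/-
S55 / 22b-LOC-DEV (helper51): passage to a quotient `Q ⧸ N` in the G-field formulation:
`Q ⧸ N` acts on the fixed field `E^N`, `(Eˣ)^N = (E^N)ˣ` as `Q ⧸ N`-representations, and the
action stays faithful (Artin).  Mathlib only.
-/
import Fermat.Agent.S55.LocDev51.GField

set_option autoImplicit false

namespace Fermat.Agent.S55.LocDev51

open CategoryTheory groupCohomology Rep

attribute [local instance] Units.mulDistribMulActionRight

variable (Q E : Type) [Group Q] [Field E] [MulSemiringAction Q E] (N : Subgroup Q) [N.Normal]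

/-- The fixed field of the normal subgroup `N`. -/
abbrev fixedField : Subfield E := FixedPoints.subfield N E

variable {Q E N} in
lemma mem_fixedField_iff {x : E} : x ∈ fixedField Q E N ↔ ∀ n ∈ N, n • x = x :=
  ⟨fun h n hn => h ⟨n, hn⟩, fun h n => h n.1 n.2⟩

/-- `E^N` is stable under all of `Q` because `N` is normal. -/
instance isInvariant_fixedField : IsInvariantSubfield Q (fixedField Q E N) where
  smul_mem q x hx := by
    rw [mem_fixedField_iff] at hx ⊢
    intro n hn
    have h1 : (q⁻¹ * n * q) • x = x := hx _ (Subgroup.Normal.conj_mem' ‹_› n hn q)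
    calc n • q • x = q • (q⁻¹ * n * q) • x := by
          rw [← mul_smul, ← mul_smul]; congr 1; group
      _ = q • x := by rw [h1]

/-- The action of `Q` on `E^N`, as a homomorphism to ring automorphisms. -/
def toRingAutFixed : Q →* RingAut (fixedField Q E N) :=
  MulSemiringAction.toRingAut Q (fixedField Q E N)

lemma le_ker_toRingAutFixed : N ≤ (toRingAutFixed Q E N).ker := by
  intro n hn
  rw [MonoidHom.mem_ker]
  ext x
  exact (mem_fixedField_iff.1 x.2) n hn

/-- The action of `Q ⧸ N` on `E^N`, as a homomorphism. -/
def quotToRingAut : Q ⧸ N →* RingAut (fixedField Q E N) :=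
  QuotientGroup.lift N (toRingAutFixed Q E N) (le_ker_toRingAutFixed Q E N)

/-- The action of `Q ⧸ N` on the fixed field `E^N`. -/
@[reducible] def quotAction : MulSemiringAction (Q ⧸ N) (fixedField Q E N) :=
  MulSemiringAction.compHom _ (quotToRingAut Q E N)

attribute [local instance] quotAction

variable {Q E N} in
@[simp] lemma quotAction_mk (q : Q) (x : fixedField Q E N) :
    (((q : Q ⧸ N) • x : fixedField Q E N) : E) = q • (x : E) := rfl

/-- A unit of `E` fixed by `N`, as a unit of `E^N`. -/
def unitOfFixed (u : Eˣ) (hu : ∀ n ∈ N, n • u = u) : (fixedField Q E N)ˣ where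
  val := ⟨u, mem_fixedField_iff.2 fun n hn => by
    have := congrArg (fun v : Eˣ => (v : E)) (hu n hn); simpa using this⟩
  inv := ⟨((u⁻¹ : Eˣ) : E), mem_fixedField_iff.2 fun n hn => by
    have h1 : n • u⁻¹ = u⁻¹ := by rw [smul_inv', hu n hn]
    have := congrArg (fun v : Eˣ => (v : E)) h1; simpa using this⟩
  val_inv := by ext; simp
  inv_val := by ext; simp

variable {Q E N} in
@[simp] lemma coe_unitOfFixed (u : Eˣ) (hu : ∀ n ∈ N, n • u = u) :
    (((unitOfFixed Q E N u hu : (fixedField Q E N)ˣ) : fixedField Q E N) : E) = u := rfl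

/-- A unit of `E^N` as a unit of `E`. -/
def unitToE : (fixedField Q E N)ˣ →* Eˣ := Units.map (fixedField Q E N).subtype.toMonoidHom

variable {Q E N} in
@[simp] lemma coe_unitToE (v : (fixedField Q E N)ˣ) :
    ((unitToE Q E N v : Eˣ) : E) = ((v : fixedField Q E N) : E) := rfl

variable {Q E N} in
lemma smul_unitToE (v : (fixedField Q E N)ˣ) (n : Q) (hn : n ∈ N) :
    n • unitToE Q E N v = unitToE Q E N v := by
  ext
  simp only [coe_smul_units, coe_unitToE]
  exact (mem_fixedField_iff.1 (v : fixedField Q E N).2) n hn

variable {Q E N} in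
lemma unitToE_smul (q : Q) (v : (fixedField Q E N)ˣ) :
    unitToE Q E N ((q : Q ⧸ N) • v) = q • unitToE Q E N v := by
  ext; rfl

variable {Q E N} in
lemma mem_invariants_iff (x : unitsRep Q E) :
    x ∈ Representation.invariants ((unitsRep Q E).ρ.comp N.subtype) ↔ ∀ n ∈ N, n • toU x = toU x := by
  constructor
  · intro h n hn
    have := h ⟨n, hn⟩
    exact congrArg toU this
  · intro h n
    apply toU_injective
    exact h n.1 n.2

/-- `(Eˣ)^N ≃ (E^N)ˣ`, additively. -/
def invariantsAddEquiv :
    Representation.invariants ((unitsRep Q E).ρ.comp N.subtype) ≃+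
      unitsRep (Q ⧸ N) (fixedField Q E N) where
  toFun x := ofU (unitOfFixed Q E N (toU x.1) ((mem_invariants_iff x.1).1 x.2))
  invFun y := ⟨ofU (unitToE Q E N (toU y)), (mem_invariants_iff _).2 fun n hn => by
    rw [toU_ofU]; exact smul_unitToE _ n hn⟩
  left_inv x := by
    apply Subtype.ext
    apply toU_injective
    ext
    rfl
  right_inv y := by
    apply toU_injective
    ext
    rfl
  map_add' x y := by
    apply toU_injective
    ext
    rfl

/-- `(Eˣ)^N ≅ (E^N)ˣ` as representations of `Q ⧸ N`. -/
noncomputable def quotIso :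
    (unitsRep Q E).quotientToInvariants N ≅ unitsRep (Q ⧸ N) (fixedField Q E N) :=
  Rep.mkIso (Representation.Equiv.mk (invariantsAddEquiv Q E N).toIntLinearEquiv (by
    intro g
    induction g using QuotientGroup.induction_on with
    | H q =>
      ext x
      rfl))

section Faithful

variable [Finite Q] [FaithfulSMul Q E]

/-- Artin: an element of `Q` fixing `E^N` pointwise lies in `N`. -/
lemma mem_of_fixes_fixedField (q : Q) (hq : ∀ x ∈ fixedField Q E N, q • x = x) : q ∈ N := by
  haveI : Finite N := inferInstance
  -- `x ↦ q • x` is an `E^N`-algebra automorphism of `E`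
  let σ : E ≃ₐ[fixedField Q E N] E :=
    { MulSemiringAction.toRingEquiv Q E q with
      commutes' := fun x => hq x.1 x.2 }
  obtain ⟨n, hn⟩ := FixedPoints.toAlgAut_surjective N E σ
  have : q = (n : Q) := by
    refine FaithfulSMul.eq_of_smul_eq_smul (α := E) fun x => ?_
    have := DFunLike.congr_fun hn x
    exact this.symm
  rw [this]
  exact n.2

theorem faithful_quot : FaithfulSMul (Q ⧸ N) (fixedField Q E N) where
  eq_of_smul_eq_smul := by
    intro a b h
    induction a using QuotientGroup.induction_on with
    | H a =>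
    induction b using QuotientGroup.induction_on with
    | H b =>
      rw [QuotientGroup.eq]
      apply mem_of_fixes_fixedField Q E N
      intro x hx
      have h1 := congrArg (fun y : fixedField Q E N => (y : E)) (h ⟨x, hx⟩)
      simp only [quotAction_mk] at h1
      rw [mul_smul, ← h1, ← mul_smul, inv_mul_cancel, one_smul]

end Faithful

end Fermat.Agent.S55.LocDev51
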