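/-
S55 / 22b-LOC-DEV (helper51): local G-fields (a finite group acting faithfully and isometrically
on a locally compact nonarchimedean normed field), closure under subgroups and quotients, and the
cyclic layer: `[fixed units : norms] = |Q|` (from helper28's local norm index, LocH28.Main).
-/
import Fermat.Agent.S55.LocDev51.Quot
import Fermat.Agent.S55.LocDev51.Cyclic
import Fermat.Agent.S55.LocH28.Main

set_option autoImplicit false

namespace Fermat.Agent.S55.LocDev51

open CategoryTheory groupCohomology Rep

attribute [local instance] Units.mulDistribMulActionRight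

/-- A *local G-field*: a finite group `Q` acting faithfully and isometrically on a nontrivially
normed, ultrametric, locally compact field `E`.  The base field is `FixedPoints.subfield Q E`. -/
structure IsLocalGField (Q E : Type) [Group Q] [NormedField E] [MulSemiringAction Q E] :
    Prop where
  finite : Finite Q
  faithful : FaithfulSMul Q E
  isometric : ∀ (q : Q) (x : E), ‖q • x‖ = ‖x‖
  ultrametric : IsUltrametricDist E
  proper : ProperSpace E
  nontrivial : ∃ x : E, 0 < ‖x‖ ∧ ‖x‖ < 1

namespace IsLocalGField

variable {Q E : Type} [Group Q] [NormedField E] [MulSemiringAction Q E]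

/-- Restriction to a subgroup. -/
theorem sub (h : IsLocalGField Q E) (H : Subgroup Q) : IsLocalGField H E where
  finite := by haveI := h.finite; infer_instance
  faithful := ⟨fun {a b} hab => by
    haveI := h.faithful
    apply Subtype.ext
    exact FaithfulSMul.eq_of_smul_eq_smul (α := E) fun x => hab x⟩
  isometric := fun q x => h.isometric q.1 x
  ultrametric := h.ultrametric
  proper := h.proper
  nontrivial := h.nontrivial

lemma continuous_smul_const (h : IsLocalGField Q E) (q : Q) : Continuous fun x : E => q • x := by
  refine (Isometry.continuous (f := fun x : E => q • x) ?_)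
  refine Isometry.of_dist_eq fun x y => ?_
  rw [dist_eq_norm, dist_eq_norm, ← smul_sub, h.isometric]

lemma isClosed_fixedField (h : IsLocalGField Q E) (N : Subgroup Q) [N.Normal] :
    IsClosed ((fixedField Q E N : Subfield E) : Set E) := by
  have : ((fixedField Q E N : Subfield E) : Set E) = ⋂ n : N, {x : E | (n : Q) • x = x} := by
    ext x
    simp only [Set.mem_iInter, Set.mem_setOf_eq]
    exact Iff.rfl
  rw [this]
  exact isClosed_iInter fun n => isClosed_eq (h.continuous_smul_const n.1) continuous_id

attribute [local instance] quotAction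

/-- Passage to the quotient by a normal subgroup, acting on the fixed field. -/
theorem quot (h : IsLocalGField Q E) (N : Subgroup Q) [N.Normal] :
    IsLocalGField (Q ⧸ N) (fixedField Q E N) where
  finite := by haveI := h.finite; infer_instance
  faithful := by
    haveI := h.finite
    haveI := h.faithful
    exact faithful_quot Q E N
  isometric := fun q x => by
    induction q using QuotientGroup.induction_on with
    | H q => exact h.isometric q (x : E)
  ultrametric := by haveI := h.ultrametric; infer_instance
  proper := by
    haveI := h.proper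
    exact ProperSpace.of_isClosed (h.isClosed_fixedField N)
  nontrivial := by
    classical
    haveI := h.finite
    haveI : Fintype N := Fintype.ofFinite N
    obtain ⟨x, hx0, hx1⟩ := h.nontrivial
    have hmem : (∏ n : N, (n : Q) • x) ∈ fixedField Q E N := by
      rw [mem_fixedField_iff]
      intro m hm
      rw [Finset.smul_prod']
      simp_rw [← mul_smul]
      exact Fintype.prod_bijective (fun n : N => (⟨m, hm⟩ : N) * n)
        (Group.mulLeft_bijective _) _ _ (fun _ => rfl)
    have hnorm : ‖(∏ n : N, (n : Q) • x)‖ = ‖x‖ ^ Fintype.card N := by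
      rw [norm_prod]
      simp only [h.isometric]
      rw [Finset.prod_const, Finset.card_univ]
    refine ⟨⟨_, hmem⟩, ?_, ?_⟩
    · change 0 < ‖(∏ n : N, (n : Q) • x)‖
      rw [hnorm]; exact pow_pos hx0 _
    · change ‖(∏ n : N, (n : Q) • x)‖ < 1
      rw [hnorm]
      exact pow_lt_one₀ hx0.le hx1 Fintype.card_ne_zero

end IsLocalGField

section CyclicLayer

variable {Q E : Type} [Group Q] [NormedField E] [MulSemiringAction Q E]

/-- The base field `E^Q`. -/
abbrev baseField (Q E : Type) [Group Q] [NormedField E] [MulSemiringAction Q E] : Subfield E :=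
  FixedPoints.subfield Q E

/-- `E` is a normed algebra over its subfield `E^Q`. -/
@[reducible] noncomputable def normedAlgebraBase : NormedAlgebra (baseField Q E) E :=
  { (inferInstance : Algebra (baseField Q E) E) with
    norm_smul_le := fun k x => by
      rw [Algebra.smul_def, norm_mul]
      exact le_of_eq rfl }

lemma exists_norm_ne_one_base (h : IsLocalGField Q E) :
    ∃ x : baseField Q E, x ≠ 0 ∧ ‖x‖ ≠ 1 := by
  classical
  haveI := h.finite
  haveI : Fintype Q := Fintype.ofFinite Q
  obtain ⟨x, hx0, hx1⟩ := h.nontrivial
  have hmem : (∏ q : Q, q • x) ∈ baseField Q E := by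
    intro m
    rw [Finset.smul_prod']
    simp_rw [← mul_smul]
    exact Fintype.prod_bijective (fun q : Q => m * q) (Group.mulLeft_bijective _) _ _
      (fun _ => rfl)
  have hnorm : ‖(∏ q : Q, q • x)‖ = ‖x‖ ^ Fintype.card Q := by
    rw [norm_prod]
    simp only [h.isometric]
    rw [Finset.prod_const, Finset.card_univ]
  have hlt : ‖(∏ q : Q, q • x)‖ < 1 := by
    rw [hnorm]; exact pow_lt_one₀ hx0.le hx1 Fintype.card_ne_zero
  have hpos : 0 < ‖(∏ q : Q, q • x)‖ := by rw [hnorm]; exact pow_pos hx0 _
  refine ⟨⟨_, hmem⟩, ?_, ?_⟩
  · intro h0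
    have : (∏ q : Q, q • x) = 0 := congrArg Subtype.val h0
    rw [this, norm_zero] at hpos
    exact lt_irrefl _ hpos
  · exact ne_of_lt hlt

lemma isClosed_baseField (h : IsLocalGField Q E) :
    IsClosed ((baseField Q E : Subfield E) : Set E) := by
  have : ((baseField Q E : Subfield E) : Set E) = ⋂ q : Q, {x : E | q • x = x} := by
    ext x
    simp only [Set.mem_iInter, Set.mem_setOf_eq]
    exact Iff.rfl
  rw [this]
  exact isClosed_iInter fun q => isClosed_eq (h.continuous_smul_const q) continuous_id

/-- The units of the base field map isomorphically onto the fixed units. -/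
def baseUnitsToFixed : (baseField Q E)ˣ →* fixedUnits Q E where
  toFun u := ⟨Units.map (baseField Q E).subtype.toMonoidHom u, fun q => by
    ext
    exact (u : baseField Q E).2 q⟩
  map_one' := by ext; rfl
  map_mul' a b := by ext; rfl

lemma baseUnitsToFixed_surjective : Function.Surjective (baseUnitsToFixed (Q := Q) (E := E)) := by
  intro ⟨u, hu⟩
  refine ⟨⟨⟨u, fun q => ?_⟩, ⟨((u⁻¹ : Eˣ) : E), fun q => ?_⟩, ?_, ?_⟩, ?_⟩
  · have := congrArg (fun v : Eˣ => (v : E)) (hu q); simpa using this
  · have h1 : q • u⁻¹ = u⁻¹ := by rw [smul_inv', hu q]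
    have := congrArg (fun v : Eˣ => (v : E)) h1; simpa using this
  · ext; simp
  · ext; simp
  · ext; rfl

/-- **Cyclic layer**: for a cyclic local G-field, `[fixed units : norms] = |Q|`. -/
theorem relIndex_normUnits_of_cyclic (h : IsLocalGField Q E) [Fintype Q] [IsCyclic Q] :
    (normUnits Q E).relIndex (fixedUnits Q E) = Nat.card Q := by
  classical
  haveI := h.finite
  haveI := h.faithful
  haveI := h.ultrametric
  haveI := h.proper
  letI : NontriviallyNormedField (baseField Q E) :=
    NontriviallyNormedField.ofNormNeOne (exists_norm_ne_one_base h)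
  letI : NormedAlgebra (baseField Q E) E := normedAlgebraBase
  haveI : ProperSpace (baseField Q E) := ProperSpace.of_isClosed (isClosed_baseField h)
  haveI : IsUltrametricDist (baseField Q E) := inferInstance
  haveI : IsGalois (baseField Q E) E := inferInstance
  let e : Q ≃* (E ≃ₐ[baseField Q E] E) := FixedPoints.toAlgAutMulEquiv Q E
  haveI : IsCyclic (E ≃ₐ[baseField Q E] E) := isCyclic_of_surjective e e.surjective
  have hidx := Fermat.Agent.S55.LocH28.Main.card_units_quot_norm_range'
    (K := baseField Q E) (L := E)
  have hfin : Module.finrank (baseField Q E) E = Nat.card Q := by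
    rw [FixedPoints.finrank_eq_card, Nat.card_eq_fintype_card]
  rw [hfin, ← Subgroup.index_eq_card] at hidx
  rw [← hidx, Subgroup.relIndex,
    ← Subgroup.index_comap_of_surjective _ (baseUnitsToFixed_surjective (Q := Q) (E := E))]
  congr 1
  ext u
  rw [Subgroup.mem_comap, Subgroup.mem_subgroupOf]
  have key : ∀ y : Eˣ, algebraMap (baseField Q E) E (Algebra.norm (baseField Q E) (y : E))
      = ((normHomUnits Q E y : Eˣ) : E) := by
    intro y
    rw [Algebra.norm_eq_prod_automorphisms, normHomUnits_apply, Units.coe_prod]
    refine (Fintype.prod_equiv e.toEquiv _ _ (fun q => ?_)).symm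
    rfl
  constructor
  · rintro ⟨y, hy⟩
    refine ⟨y, ?_⟩
    ext
    have h1 := key y
    have h2 : ((normHomUnits Q E y : Eˣ) : E) = _ := congrArg (fun v : Eˣ => (v : E)) hy
    rw [← h1] at h2
    exact h2
  · rintro ⟨y, hy⟩
    refine ⟨y, ?_⟩
    ext
    rw [← key y]
    have := congrArg (fun v : (baseField Q E)ˣ => ((v : baseField Q E) : E)) hy
    exact this

end CyclicLayer

end Fermat.Agent.S55.LocDev51
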