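/-
S55 / 22g-LEVEL-ADAPT (helper51): adapter between the finite layers `(V ⧸ U, Ω^U)` of the local
absolute Galois group (`Ω = PadicAlgCl q`, `V` an open subgroup, `U` a restricted level; shapes of
P2Local71) and SUBGROUPS `D ≤ Gal(E/ℚ_q)` of finite Galois extensions `E/ℚ_q` inside `Ω`:
`(V ⧸ U, Ω^U) ≅ (D, E)` as G-fields, with `E = Ω^{U₃}` the local level field and `D` the image
of `V`.  Consequence: `P2Local71.LocalTateH3 q` follows from `H³(D, Eˣ) = 0` for all such `(D, E)`,
i.e. from the absolute case `K = ℚ_q` of the local class formation.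
-/
import Fermat.Agent.S55.P2Local71.Base
import Fermat.Agent.S55.UnrBridge42.Norm
import Fermat.Agent.S55.LocField17.Basic
import Fermat.Agent.S55.TateNak43.Uncond25
import Fermat.Agent.S55.TateNak43.Fund
import Fermat.Agent.S55.InfRes9.ResKill

set_option autoImplicit false

namespace Fermat.Agent.S55.LocDev51

open CategoryTheory groupCohomology Rep

attribute [local instance] Units.mulDistribMulActionRight

/-! ### transport of cohomology along an isomorphism of G-fields -/

section Transport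

variable {Q Q' E E' : Type} [Group Q] [Group Q'] [Field E] [Field E']
  [MulSemiringAction Q E] [MulSemiringAction Q' E']

/-- the linear equivalence of unit modules induced by a ring isomorphism -/
noncomputable def unitsLinearEquiv (ψ : E ≃+* E') : (unitsRep Q E).V ≃ₗ[ℤ] (unitsRep Q' E').V :=
  (MulEquiv.toAdditive (Units.mapEquiv ψ.toMulEquiv)).toIntLinearEquiv

lemma toU_unitsLinearEquiv (ψ : E ≃+* E') (x : unitsRep Q E) :
    ((toU (unitsLinearEquiv (Q := Q) (Q' := Q') ψ x) : E'ˣ) : E') = ψ ((toU x : Eˣ) : E) := rfl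

/-- **transport of cohomology along an isomorphism of G-fields.** -/
noncomputable def cohomologyIsoOfEquiv (e : Q ≃* Q') (ψ : E ≃+* E')
    (hψ : ∀ (g : Q) (x : E), ψ (g • x) = e g • ψ x) (n : ℕ) :
    groupCohomology (unitsRep Q E) n ≅ groupCohomology (unitsRep Q' E') n :=
  groupCohomology.mapIso e (unitsLinearEquiv ψ) (fun g => by
    ext x
    apply toU_injective
    ext
    show ψ (g • ((toU x : Eˣ) : E)) = e g • ψ ((toU x : Eˣ) : E)
    exact hψ g _) n

end Transport

/-! ### the layers of the local Galois group -/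

section Layers

open Fermat.Agent.S55.LocField17 Fermat.Agent.S55.P2Local71 Fermat.Agent.S55.Profin15
open Fermat.Agent.S55.ProfinLoc80

variable {q : ℕ} [Fact q.Prime]

local instance : Normal ℚ_[q] (PadicAlgCl q) := IsAlgClosure.normal ℚ_[q] (PadicAlgCl q)

local instance : IsGalois ℚ_[q] (PadicAlgCl q) := {}

/-- an element fixed by `Gal(Ω/E)` lies in `E`. -/
lemma mem_of_fixed_by_fixingSubgroup (E : LF q) {y : Om q}
    (h : ∀ s ∈ E.fixingSubgroup, s y = y) : y ∈ E := by
  rw [← InfiniteGalois.fixedField_fixingSubgroup E, IntermediateField.mem_fixedField_iff]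
  exact h

/-- a finite-dimensional `E` with normal fixing subgroup is normal over `ℚ_q`. -/
lemma normal_of_normal_fixingSubgroup (E : LF q) (hn : E.fixingSubgroup.Normal) :
    Normal ℚ_[q] E := by
  rw [IntermediateField.normal_iff_forall_map_le']
  rintro σ _ ⟨x, hx, rfl⟩
  apply mem_of_fixed_by_fixingSubgroup
  intro s hs
  have h1 : σ⁻¹ * s * σ ∈ E.fixingSubgroup := hn.conj_mem' s hs σ
  have h2 := (IntermediateField.mem_fixingSubgroup_iff _ _).1 h1 x hx
  have h3 : σ ((σ⁻¹ * s * σ) x) = s (σ x) := by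
    simp only [AlgEquiv.mul_apply]
    exact AlgEquiv.apply_symm_apply σ _
  show s (σ x) = σ x
  rw [← h3, h2]

/-- **(A1)** every level of the local Galois group is the fixing subgroup of a finite Galois
extension of `ℚ_q` inside `Ω`. -/
theorem exists_levelField {U₃ : Subgroup (GalQ q)} (hU₃ : U₃ ∈ (lev q).levels) :
    ∃ E : LF q, FiniteDimensional ℚ_[q] E ∧ Normal ℚ_[q] E ∧ U₃ = E.fixingSubgroup := by
  have hnorm := (lev q).normal U₃ hU₃
  obtain ⟨U₀, ⟨-, F, hF, rfl⟩, rfl⟩ := LevelStr.mem_comap_levels.1 hU₃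
  have heq : (F.fixingSubgroup).comap (localGaloisToGlobal q) = (localLevel q F).fixingSubgroup := by
    ext τ
    rw [Subgroup.mem_comap, mem_fixingSubgroup_localLevel_iff]
  haveI := hF
  refine ⟨localLevel q F, UnrBridge42.finiteDimensional_localLevel q F, ?_, heq⟩
  exact normal_of_normal_fixingSubgroup _ (heq ▸ hnorm)

variable (V : Subgroup (GalQ q)) (E : LF q) [Normal ℚ_[q] E]

/-- restriction of `V` to `E`. -/
noncomputable def resV : ↥V →* (E ≃ₐ[ℚ_[q]] E) := (AlgEquiv.restrictNormalHom E).comp V.subtype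

lemma resV_apply (v : ↥V) (y : E) : ((resV V E v y : E) : Om q) = (v : GalQ q) (y : Om q) :=
  AlgEquiv.restrictNormal_commutes (v : GalQ q) E y

lemma ker_resV : (resV V E).ker = E.fixingSubgroup.subgroupOf V := by
  ext v
  rw [MonoidHom.mem_ker, Subgroup.mem_subgroupOf, ← IntermediateField.restrictNormalHom_ker E,
    MonoidHom.mem_ker]
  rfl

/-- the image of `V` in `Gal(E/ℚ_q)`. -/
noncomputable abbrev imageV : Subgroup (E ≃ₐ[ℚ_[q]] E) := (resV V E).range

variable [hn : (E.fixingSubgroup.subgroupOf V).Normal]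

/-- `V ⧸ (V ∩ Gal(Ω/E)) ≃ image of V in Gal(E/ℚ_q)`. -/
noncomputable def quotEquivImage : ↥V ⧸ (E.fixingSubgroup.subgroupOf V) ≃* imageV V E :=
  (QuotientGroup.quotientMulEquivOfEq (ker_resV V E).symm).trans
    (QuotientGroup.quotientKerEquivRange (resV V E))

lemma quotEquivImage_mk (v : ↥V) :
    ((quotEquivImage V E (QuotientGroup.mk v) : imageV V E) : E ≃ₐ[ℚ_[q]] E) = resV V E v := rfl

lemma mem_fixedField_iff_mem (hle : E.fixingSubgroup ≤ V) (x : Om q) :
    x ∈ fixedField ↥V (Om q) (E.fixingSubgroup.subgroupOf V) ↔ x ∈ E := by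
  rw [mem_fixedField_iff]
  constructor
  · intro h
    apply mem_of_fixed_by_fixingSubgroup
    intro s hs
    exact h ⟨s, hle hs⟩ (Subgroup.mem_subgroupOf.2 hs)
  · intro hx n hn
    exact (IntermediateField.mem_fixingSubgroup_iff _ _).1 (Subgroup.mem_subgroupOf.1 hn) x hx

/-- the fixed field of the level is `E`. -/
noncomputable def fixedFieldEquiv (hle : E.fixingSubgroup ≤ V) :
    fixedField ↥V (Om q) (E.fixingSubgroup.subgroupOf V) ≃+* E where
  toFun x := ⟨x.1, (mem_fixedField_iff_mem V E hle x.1).1 x.2⟩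
  invFun y := ⟨y.1, (mem_fixedField_iff_mem V E hle y.1).2 y.2⟩
  left_inv _ := rfl
  right_inv _ := rfl
  map_mul' _ _ := rfl
  map_add' _ _ := rfl

attribute [local instance] quotAction

lemma fixedFieldEquiv_smul (hle : E.fixingSubgroup ≤ V)
    (g : ↥V ⧸ (E.fixingSubgroup.subgroupOf V))
    (x : fixedField ↥V (Om q) (E.fixingSubgroup.subgroupOf V)) :
    fixedFieldEquiv V E hle (g • x) = quotEquivImage V E g • fixedFieldEquiv V E hle x := by
  induction g using QuotientGroup.induction_on with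
  | H v =>
    apply Subtype.ext
    show (v : GalQ q) (x : Om q) = ((resV V E v (fixedFieldEquiv V E hle x) : E) : Om q)
    rw [resV_apply]
    rfl

/-- **(A2)** cohomology of the layer `(V ⧸ U, Ω^U)`, `U = V ∩ Gal(Ω/E)`, is the cohomology of the
subgroup `D = image of V` of `Gal(E/ℚ_q)` acting on `Eˣ`. -/
noncomputable def layerCohomologyIso (hle : E.fixingSubgroup ≤ V) (n : ℕ) :
    groupCohomology (unitsRep (↥V ⧸ (E.fixingSubgroup.subgroupOf V))
      (fixedField ↥V (Om q) (E.fixingSubgroup.subgroupOf V))) n ≅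
    groupCohomology (unitsRep (imageV V E) E) n :=
  cohomologyIsoOfEquiv (quotEquivImage V E) (fixedFieldEquiv V E hle)
    (fixedFieldEquiv_smul V E hle) n

/-! ### the reductions of `P2Local71.LocalTateH3` -/

/-- `Res_D (Eˣ) = unitsRep D E` for a subgroup `D` of `Gal(E/F)`. -/
noncomputable def resSubgroupIso {F E : Type} [Field F] [Field E] [Algebra F E]
    (D : Subgroup (E ≃ₐ[F] E)) :
    Rep.res D.subtype (Rep.ofAlgebraAutOnUnits F E) ≅ unitsRep D E :=
  Rep.mkIso (Representation.Equiv.mk (LinearEquiv.refl ℤ (Additive Eˣ)) (fun _ => rfl))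

/-- **(A3)** `LocalTateH3` from `H³(D, Eˣ) = 0` for all subgroups `D` of `Gal(E/ℚ_q)`, `E/ℚ_q`
finite Galois inside `Ω`. -/
theorem localTateH3_of_subgroups
    (h : ∀ (E : LF q) [FiniteDimensional ℚ_[q] E] [Normal ℚ_[q] E]
      (D : Subgroup (E ≃ₐ[ℚ_[q]] E)), Limits.IsZero (groupCohomology (unitsRep D E) 3)) :
    LocalTateH3 q := by
  intro V hV U hU
  obtain ⟨U₃, hU₃, hle, rfl⟩ := hU
  obtain ⟨E, hfd, hnE, rfl⟩ := exists_levelField hU₃
  haveI := (CD3.restrictLevels (lev q) V hV).normal (E.fixingSubgroup.subgroupOf V)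
    ⟨E.fixingSubgroup, hU₃, hle, rfl⟩
  exact Limits.IsZero.of_iso (h E (imageV V E)) (layerCohomologyIso V E hle 3)

/-- **(A3')** the same with Mathlib's `Rep.res D.subtype (Rep.ofAlgebraAutOnUnits ℚ_[q] E)`. -/
theorem localTateH3_of_res
    (h : ∀ (E : LF q) [FiniteDimensional ℚ_[q] E] [Normal ℚ_[q] E]
      (D : Subgroup (E ≃ₐ[ℚ_[q]] E)),
      Limits.IsZero (groupCohomology (Rep.res D.subtype (Rep.ofAlgebraAutOnUnits ℚ_[q] E)) 3)) :
    LocalTateH3 q :=
  localTateH3_of_subgroups fun E _ _ D =>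
    Limits.IsZero.of_iso (h E D)
      ((groupCohomology.functor ℤ D 3).mapIso (resSubgroupIso D).symm)

/-- **(A4)** `LocalTateH3` from the existence of a fundamental cocycle for every finite Galois
`E/ℚ_q` inside `Ω` (the absolute case of the local class formation), by Tate's theorem. -/
theorem localTateH3_of_fundamental
    (h : ∀ (E : LF q) [FiniteDimensional ℚ_[q] E] [Normal ℚ_[q] E],
      ∃ σ : cocycles₂ (Rep.ofAlgebraAutOnUnits ℚ_[q] E),
        Fermat.Agent.S55.TateNak43.IsFundamentalCocycle (Rep.ofAlgebraAutOnUnits ℚ_[q] E) σ) :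
    LocalTateH3 q :=
  localTateH3_of_res fun E _ _ D => by
    classical
    obtain ⟨σ, hσ⟩ := h E
    haveI : Fintype (E ≃ₐ[ℚ_[q]] E) := Fintype.ofFinite _
    exact Fermat.Agent.S55.TateNak43.Uncond25.isZero_H3 _ σ hσ D

/-! ### cyclicity of `H²` of the layers (finite-level input of `LocalBrDiv`) -/

/-- for a fundamental cocycle, the restricted class generates `H²(D, C)` and has order `|D|`. -/
theorem fundamental_generator {G : Type} [Group G] [Finite G] (C : Rep ℤ G) (σ : cocycles₂ C)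
    (hσ : Fermat.Agent.S55.TateNak43.IsFundamentalCocycle C σ) (D : Subgroup G) :
    ∃ γ : groupCohomology (Rep.res D.subtype C) 2,
      (∀ x, ∃ k : ℤ, x = k • γ) ∧ addOrderOf γ = Nat.card D := by
  refine ⟨H2π (Rep.res D.subtype C) (Fermat.Agent.S55.TateNak43.resCocycle C σ D),
    fun x => ?_, ?_⟩
  · obtain ⟨a, ha⟩ := hσ.hgen D x
    exact ⟨a, ha.trans (Fermat.Agent.S55.TateNak43.modSMul_eq_zsmul a _)⟩
  · set γ := H2π (Rep.res D.subtype C) (Fermat.Agent.S55.TateNak43.resCocycle C σ D) with hγ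
    apply Nat.dvd_antisymm
    · exact addOrderOf_dvd_of_nsmul_eq_zero
        (Fermat.Agent.S55.InfRes9.card_smul_eq_zero_two (Rep.res D.subtype C) γ)
    · have h0 : ((addOrderOf γ : ℕ) : ℤ) • γ = 0 := by
        rw [natCast_zsmul]; exact addOrderOf_nsmul_eq_zero γ
      obtain ⟨b, hb⟩ := hσ.hord D (addOrderOf γ : ℤ)
        ((Fermat.Agent.S55.TateNak43.modSMul_eq_zsmul _ γ).trans h0)
      exact Int.natCast_dvd_natCast.1 ⟨b, hb⟩

/-- **(A5)** from fundamental cocycles for all finite Galois `E/ℚ_q`: `H²` of every layer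
`(V ⧸ U, Ω^U)` is cyclic of order `[V : U]`. -/
theorem exists_generator_layer
    (h : ∀ (E : LF q) [FiniteDimensional ℚ_[q] E] [Normal ℚ_[q] E],
      ∃ σ : cocycles₂ (Rep.ofAlgebraAutOnUnits ℚ_[q] E),
        Fermat.Agent.S55.TateNak43.IsFundamentalCocycle (Rep.ofAlgebraAutOnUnits ℚ_[q] E) σ)
    (V : Subgroup (GalQ q)) (hV : CD3.IsOpenSub (lev q) V) (U : Subgroup ↥V)
    (hU : U ∈ (CD3.restrictLevels (lev q) V hV).levels) :
    letI := (CD3.restrictLevels (lev q) V hV).normal U hU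
    ∃ γ : groupCohomology (unitsRep (↥V ⧸ U) (fixedField ↥V (Om q) U)) 2,
      (∀ x, ∃ k : ℤ, x = k • γ) ∧ addOrderOf γ = Nat.card (↥V ⧸ U) := by
  obtain ⟨U₃, hU₃, hle, rfl⟩ := hU
  obtain ⟨E, hfd, hnE, rfl⟩ := exists_levelField hU₃
  haveI := (CD3.restrictLevels (lev q) V hV).normal (E.fixingSubgroup.subgroupOf V)
    ⟨E.fixingSubgroup, hU₃, hle, rfl⟩
  obtain ⟨σ, hσ⟩ := h E
  obtain ⟨γ₀, hgen, hord⟩ := fundamental_generator _ σ hσ (imageV V E)
  let Φ : groupCohomology (unitsRep (↥V ⧸ (E.fixingSubgroup.subgroupOf V))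
      (fixedField ↥V (Om q) (E.fixingSubgroup.subgroupOf V))) 2 ≃ₗ[ℤ]
      groupCohomology (Rep.res (imageV V E).subtype (Rep.ofAlgebraAutOnUnits ℚ_[q] E)) 2 :=
    (layerCohomologyIso V E hle 2 ≪≫
      (groupCohomology.functor ℤ (imageV V E) 2).mapIso
        (resSubgroupIso (imageV V E)).symm).toLinearEquiv
  refine ⟨Φ.symm γ₀, fun x => ?_, ?_⟩
  · obtain ⟨k, hk⟩ := hgen (Φ x)
    refine ⟨k, ?_⟩
    rw [← map_zsmul, ← hk, LinearEquiv.symm_apply_apply]
  · rw [show addOrderOf (Φ.symm γ₀) = addOrderOf γ₀ from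
      AddEquiv.addOrderOf_eq Φ.symm.toAddEquiv γ₀, hord]
    exact (Nat.card_congr (quotEquivImage V E).toEquiv).symm

/-- **(A2)** in consumer form: every layer `(V ⧸ U, Ω^U)` has the cohomology of a subgroup
`D ≤ Gal(E/ℚ_q)` of the same order, `E/ℚ_q` finite Galois inside `Ω`. -/
theorem exists_layer_adapt (V : Subgroup (GalQ q)) (hV : CD3.IsOpenSub (lev q) V)
    (U : Subgroup ↥V) (hU : U ∈ (CD3.restrictLevels (lev q) V hV).levels) :
    letI := (CD3.restrictLevels (lev q) V hV).normal U hU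
    ∃ (E : LF q) (_ : FiniteDimensional ℚ_[q] E) (_ : IsGalois ℚ_[q] E)
      (D : Subgroup (E ≃ₐ[ℚ_[q]] E)), Nat.card D = Nat.card (↥V ⧸ U) ∧
      ∀ n, Nonempty (groupCohomology (unitsRep (↥V ⧸ U) (fixedField ↥V (Om q) U)) n ≅
        groupCohomology (unitsRep D E) n) := by
  obtain ⟨U₃, hU₃, hle, rfl⟩ := hU
  obtain ⟨E, hfd, hnE, rfl⟩ := exists_levelField hU₃
  haveI := (CD3.restrictLevels (lev q) V hV).normal (E.fixingSubgroup.subgroupOf V)
    ⟨E.fixingSubgroup, hU₃, hle, rfl⟩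
  haveI : IsGalois ℚ_[q] E := {}
  exact ⟨E, hfd, inferInstance, imageV V E,
    (Nat.card_congr (quotEquivImage V E).toEquiv).symm,
    fun n => ⟨layerCohomologyIso V E hle n⟩⟩

end Layers

end Fermat.Agent.S55.LocDev51
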