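/-
S55 / 22b-LOC-DEV (helper51): the devissage instance for the local multiplicative module.
For every local G-field `(Q, E)`: `H¹(Q, Eˣ) = 0` and `|H²(Q, Eˣ)|` divides `|Q|`
(in particular the `p`-primary part has order dividing `|Q|_p`), and the same for all
sub-quotients `(Q ⧸ N, (Eˣ)^N)`.
Inputs: helper28's local norm index (LocH28.Main), helper9's abstract devissage (InfRes9).
-/
import Fermat.Agent.S55.LocDev51.Local
import Fermat.Agent.S55.InfRes9.DevissageFull

set_option autoImplicit false

namespace Fermat.Agent.S55.LocDev51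

open CategoryTheory groupCohomology Rep

attribute [local instance] Units.mulDistribMulActionRight

/-- The class of local multiplicative Galois modules: `B ≅ Eˣ` for some local G-field `(Q, E)`. -/
def LocalClass (Q : Type) [Group Q] (B : Rep.{0, 0, 0} ℤ Q) : Prop :=
  ∃ (E : Type) (_ : NormedField E) (_ : MulSemiringAction Q E),
    IsLocalGField Q E ∧ Nonempty (B ≅ unitsRep Q E)

theorem localClass_unitsRep {Q E : Type} [Group Q] [NormedField E] [MulSemiringAction Q E]
    (h : IsLocalGField Q E) : LocalClass Q (unitsRep Q E) :=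
  ⟨E, inferInstance, inferInstance, h, ⟨Iso.refl _⟩⟩

attribute [local instance] quotAction

/-- The local class is closed under restriction to subgroups and passage to quotients. -/
theorem closed_localClass : InfRes9.Closed (k := ℤ) LocalClass where
  res := by
    rintro G _ A ⟨E, _, _, hE, ⟨i⟩⟩ H
    exact ⟨E, inferInstance, inferInstance, hE.sub H, ⟨(Rep.resFunctor H.subtype).mapIso i⟩⟩
  quot := by
    rintro G _ A ⟨E, _, _, hE, ⟨i⟩⟩ S _
    exact ⟨fixedField G E S, inferInstance, inferInstance, hE.quot S,
      ⟨(Rep.quotientToInvariantsFunctor ℤ S).mapIso i ≪≫ quotIso G E S⟩⟩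

/-- Cohomology only depends on the isomorphism class of the representation. -/
noncomputable def cohomologyEquivOfIso {Q : Type} [Group Q] {A B : Rep.{0, 0, 0} ℤ Q} (i : A ≅ B)
    (n : ℕ) : groupCohomology A n ≃ₗ[ℤ] groupCohomology B n :=
  ((groupCohomology.functor ℤ Q n).mapIso i).toLinearEquiv

/-- The cyclic layers of the local class. -/
theorem localClass_cyclic {Q : Type} [Group Q] {B : Rep.{0, 0, 0} ℤ Q} (hB : LocalClass Q B)
    [IsCyclic Q] :
    Limits.IsZero (groupCohomology B 1) ∧ Nat.card (groupCohomology B 2) = Nat.card Q := by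
  obtain ⟨E, _, _, hE, ⟨i⟩⟩ := hB
  haveI := hE.finite
  haveI := hE.faithful
  haveI : Fintype Q := Fintype.ofFinite Q
  refine ⟨(isZero_H1 Q E).of_iso ((groupCohomology.functor ℤ Q 1).mapIso i), ?_⟩
  rw [Nat.card_congr (cohomologyEquivOfIso i 2).toEquiv]
  obtain ⟨g, hg⟩ := IsCyclic.exists_generator (α := Q)
  rw [card_H2_cyclic Q E g hg, relIndex_normUnits_of_cyclic hE]

/-- The prime layers, in the shape consumed by the abstract devissage. -/
theorem localClass_prime (p : ℕ) (hp : p.Prime) (Q : Type) [Group Q] (B : Rep.{0, 0, 0} ℤ Q)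
    (hB : LocalClass Q B) (hQ : Nat.card Q = p) :
    Limits.IsZero (groupCohomology B 1) ∧ Nat.card (groupCohomology B 2) ∣ p := by
  haveI : Fact p.Prime := ⟨hp⟩
  haveI : IsCyclic Q := isCyclic_of_prime_card hQ
  obtain ⟨h1, h2⟩ := localClass_cyclic hB
  exact ⟨h1, by rw [h2, hQ]⟩

/-- **Local devissage**: for every member of the local class, `H¹ = 0` and `|H²|` divides the
group order. -/
theorem localClass_devissage {Q : Type} [Group Q] [Finite Q] {B : Rep.{0, 0, 0} ℤ Q}
    (hB : LocalClass Q B) :
    Limits.IsZero (groupCohomology B 1) ∧ Nat.card (groupCohomology B 2) ∣ Nat.card Q :=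
  InfRes9.devissage closed_localClass (fun p hp G _ A hA hG => localClass_prime p hp G A hA hG)
    Q B hB

/-- `p`-primary form. -/
theorem localClass_devissage_pPart (p : ℕ) [Fact p.Prime] {Q : Type} [Group Q] [Finite Q]
    {B : Rep.{0, 0, 0} ℤ Q} (hB : LocalClass Q B) :
    (∀ x : groupCohomology B 1, (∃ n : ℕ, p ^ n • x = 0) → x = 0) ∧
      Nat.card (InfRes9.pPrimary p (groupCohomology B 2)) ∣ p ^ (Nat.card Q).factorization p :=
  InfRes9.devissage_pPart p closed_localClass
    (fun G _ A hA hG => localClass_prime p Fact.out G A hA hG) Q B hB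

section Concrete

variable {Q E : Type} [Group Q] [NormedField E] [MulSemiringAction Q E]

/-- `|H²(Q, Eˣ)|` divides `|Q|` for a local G-field. -/
theorem card_H2_dvd (h : IsLocalGField Q E) :
    Nat.card (groupCohomology (unitsRep Q E) 2) ∣ Nat.card Q := by
  haveI := h.finite
  exact (localClass_devissage (localClass_unitsRep h)).2

/-- `H²(Q, Eˣ)` is finite for a local G-field. -/
theorem finite_H2 (h : IsLocalGField Q E) : Finite (groupCohomology (unitsRep Q E) 2) := by
  haveI := h.finite
  have hd := card_H2_dvd h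
  have hpos : 0 < Nat.card Q := Nat.card_pos
  have : Nat.card (groupCohomology (unitsRep Q E) 2) ≠ 0 := fun h0 => by
    rw [h0, zero_dvd_iff] at hd; omega
  exact Nat.finite_of_card_ne_zero this

/-- The sub-quotient form: `|H²(Q ⧸ N, (Eˣ)^N)|` divides `[Q : N]`
(hypothesis (b) of the tower lemma in the local instance). -/
theorem card_H2_quotient_dvd (h : IsLocalGField Q E) (N : Subgroup Q) [N.Normal] :
    Nat.card (groupCohomology ((unitsRep Q E).quotientToInvariants N) 2) ∣ Nat.card (Q ⧸ N) := by
  haveI := h.finite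
  exact (localClass_devissage
    (closed_localClass.quot Q (unitsRep Q E) (localClass_unitsRep h) N)).2

theorem isZero_H1_quotient (h : IsLocalGField Q E) (N : Subgroup Q) [N.Normal] :
    Limits.IsZero (groupCohomology ((unitsRep Q E).quotientToInvariants N) 1) := by
  haveI := h.finite
  exact (localClass_devissage
    (closed_localClass.quot Q (unitsRep Q E) (localClass_unitsRep h) N)).1

/-- General sub-quotients `(H ⧸ N, (Eˣ)^N)`, `N ⊴ H ≤ Q`. -/
theorem card_H2_subquotient_dvd (h : IsLocalGField Q E) (H : Subgroup Q) (N : Subgroup H)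
    [N.Normal] :
    Limits.IsZero (groupCohomology ((Rep.res H.subtype (unitsRep Q E)).quotientToInvariants N) 1) ∧
    Nat.card (groupCohomology ((Rep.res H.subtype (unitsRep Q E)).quotientToInvariants N) 2) ∣
      Nat.card (H ⧸ N) := by
  haveI := h.finite
  exact localClass_devissage
    (closed_localClass.quot H _ (closed_localClass.res Q _ (localClass_unitsRep h) H) N)

end Concrete

end Fermat.Agent.S55.LocDev51
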