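/-
S55 / 22b-LOC-DEV (helper51): the `(K, L)`-form of the local devissage, in the normed model of
LocH28 (`K` nontrivially normed, ultrametric, locally compact; `L` a normed field, finite Galois
normed `K`-algebra): for `Mathlib`'s `Rep.ofAlgebraAutOnUnits K L`,
`H¹ = 0`, `|H²(Gal(L/K), Lˣ)|` divides `[L:K]`, and likewise for all sub-quotients.
-/
import Fermat.Agent.S55.LocDev51.Devissage

set_option autoImplicit false

namespace Fermat.Agent.S55.LocDev51

open CategoryTheory groupCohomology Rep

attribute [local instance] Units.mulDistribMulActionRight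

variable (K L : Type) [NontriviallyNormedField K] [IsUltrametricDist K] [ProperSpace K]
  [NormedField L] [NormedAlgebra K L] [FiniteDimensional K L] [IsGalois K L]

/-- A finite Galois extension of local fields, with its Galois group, is a local G-field. -/
theorem isLocalGField_algEquiv : IsLocalGField (L ≃ₐ[K] L) L where
  finite := inferInstance
  faithful := inferInstance
  isometric := fun τ x => Fermat.Agent.S55.LocH28.Lattice.norm_algEquiv K L τ x
  ultrametric := Fermat.Agent.S55.LocH28.Lattice.isUltrametricDist K L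
  proper := Fermat.Agent.S55.LocH28.Lattice.properSpace K L
  nontrivial := by
    obtain ⟨π, h0, h1⟩ := NormedField.exists_norm_lt_one K
    exact ⟨algebraMap K L π, by rwa [norm_algebraMap'], by rwa [norm_algebraMap']⟩

/-- `unitsRep (Gal(L/K)) L` is Mathlib's `Rep.ofAlgebraAutOnUnits K L` (the two actions on `Lˣ`
agree). -/
noncomputable def unitsRepIso : unitsRep (L ≃ₐ[K] L) L ≅ Rep.ofAlgebraAutOnUnits K L :=
  Rep.mkIso (Representation.Equiv.mk (LinearEquiv.refl ℤ _) (by
    intro g
    ext x
    rfl))

theorem localClass_ofAlgebraAutOnUnits : LocalClass (L ≃ₐ[K] L) (Rep.ofAlgebraAutOnUnits K L) :=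
  ⟨L, inferInstance, inferInstance, isLocalGField_algEquiv K L, ⟨(unitsRepIso K L).symm⟩⟩

/-- `H¹(Gal(L/K), Lˣ) = 0` and `|H²(Gal(L/K), Lˣ)|` divides `[L:K]`. -/
theorem card_H2_ofAlgebraAutOnUnits_dvd :
    Nat.card (groupCohomology (Rep.ofAlgebraAutOnUnits K L) 2) ∣ Module.finrank K L := by
  have := (localClass_devissage (localClass_ofAlgebraAutOnUnits K L)).2
  rwa [IsGalois.card_aut_eq_finrank] at this

/-- All sub-quotients `(H ⧸ N, (Lˣ)^N)`, `N ⊴ H ≤ Gal(L/K)`: `H¹ = 0` and `|H²|` divides
`[H : N]`. -/
theorem subquotient_ofAlgebraAutOnUnits (H : Subgroup (L ≃ₐ[K] L)) (N : Subgroup H) [N.Normal] :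
    Limits.IsZero (groupCohomology
      ((Rep.res H.subtype (Rep.ofAlgebraAutOnUnits K L)).quotientToInvariants N) 1) ∧
    Nat.card (groupCohomology
      ((Rep.res H.subtype (Rep.ofAlgebraAutOnUnits K L)).quotientToInvariants N) 2) ∣
      Nat.card (H ⧸ N) :=
  localClass_devissage
    (closed_localClass.quot H _
      (closed_localClass.res _ _ (localClass_ofAlgebraAutOnUnits K L) H) N)

/-- The quotient form for a normal subgroup `N` of `Gal(L/K)` (hypothesis (b) of the tower
lemma). -/
theorem quotient_ofAlgebraAutOnUnits (N : Subgroup (L ≃ₐ[K] L)) [N.Normal] :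
    Limits.IsZero (groupCohomology ((Rep.ofAlgebraAutOnUnits K L).quotientToInvariants N) 1) ∧
    Nat.card (groupCohomology ((Rep.ofAlgebraAutOnUnits K L).quotientToInvariants N) 2) ∣
      Nat.card ((L ≃ₐ[K] L) ⧸ N) :=
  localClass_devissage (closed_localClass.quot _ _ (localClass_ofAlgebraAutOnUnits K L) N)

end Fermat.Agent.S55.LocDev51
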