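/-
S55 / 22b-LOC-DEV (helper51): the local devissage in the concrete model `LocField17.LF q`
(finite extensions of `ℚ_[q]` inside `PadicAlgCl q`).  For `K ≤ M` with `M` finite over `ℚ_[q]`
(the `K`-algebra structure on `M` is `LocField17.relAlgebra h`): `Gal(M/K)` acting on `M` is a
local G-field, hence `H¹ = 0` and `|H²|` divides the group order for `Mˣ` and for all its
sub-quotients `(H ⧸ N, (Mˣ)^N)`.
-/
import Fermat.Agent.S55.LocDev51.KL
import Fermat.Agent.S55.LocField17.LocHAdapt

set_option autoImplicit false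
set_option linter.style.haveILetI false
set_option linter.unusedSectionVars false

namespace Fermat.Agent.S55.LocDev51

open CategoryTheory groupCohomology Rep Fermat.Agent.S55.LocField17

attribute [local instance] Units.mulDistribMulActionRight

/-- For any field extension, `unitsRep (Gal(L/K)) L` is Mathlib's `Rep.ofAlgebraAutOnUnits K L`. -/
noncomputable def unitsRepIsoField (K L : Type) [Field K] [NormedField L] [Algebra K L] :
    unitsRep (L ≃ₐ[K] L) L ≅ Rep.ofAlgebraAutOnUnits K L :=
  Rep.mkIso (Representation.Equiv.mk (LinearEquiv.refl ℤ _) (by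
    intro g
    ext x
    rfl))

variable {q : ℕ} [Fact q.Prime] {K M : LF q} [FiniteDimensional ℚ_[q] M]

/-- `Gal(M/K)` acting on `M` is a local G-field (no normality needed: the base field is the fixed
field). -/
theorem isLocalGField_rel (h : K ≤ M) :
    letI := relAlgebra h
    IsLocalGField (M ≃ₐ[K] M) M := by
  letI := relAlgebra h
  haveI := finiteDimensional_rel h
  exact
    { finite := inferInstance
      faithful := inferInstance
      isometric := fun τ x => norm_relAlgEquiv h τ x
      ultrametric := inferInstance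
      proper := inferInstance
      nontrivial := ⟨((q : ℕ) : M), by
        rw [norm_pos_iff]; exact natCast_q_ne_zero M, norm_natCast_q_lt_one M⟩ }

theorem localClass_rel (h : K ≤ M) :
    letI := relAlgebra h
    LocalClass (M ≃ₐ[K] M) (Rep.ofAlgebraAutOnUnits K M) := by
  letI := relAlgebra h
  exact ⟨M, inferInstance, inferInstance, isLocalGField_rel h, ⟨(unitsRepIsoField K M).symm⟩⟩

/-- `H¹(Gal(M/K), Mˣ) = 0` and `|H²(Gal(M/K), Mˣ)|` divides `|Gal(M/K)|`. -/
theorem card_H2_rel_dvd_card (h : K ≤ M) :
    letI := relAlgebra h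
    Limits.IsZero (groupCohomology (Rep.ofAlgebraAutOnUnits K M) 1) ∧
    Nat.card (groupCohomology (Rep.ofAlgebraAutOnUnits K M) 2) ∣ Nat.card (M ≃ₐ[K] M) := by
  letI := relAlgebra h
  haveI := finiteDimensional_rel h
  exact localClass_devissage (localClass_rel h)

/-- `|H²(Gal(M/K), Mˣ)|` divides `[M:K]` for `M/K` Galois. -/
theorem card_H2_rel_dvd (h : K ≤ M) :
    letI := relAlgebra h
    ∀ [IsGalois K M],
    Nat.card (groupCohomology (Rep.ofAlgebraAutOnUnits K M) 2) ∣ Module.finrank K M := by
  letI := relAlgebra h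
  haveI := finiteDimensional_rel h
  intro _
  have := (card_H2_rel_dvd_card h).2
  rwa [IsGalois.card_aut_eq_finrank] at this

/-- All quotients: for `N ⊴ Gal(M/K)`, `H¹(G ⧸ N, (Mˣ)^N) = 0` and `|H²(G ⧸ N, (Mˣ)^N)|` divides
`[G : N]`.  (Upper bound (C) of LocInv80, hypothesis (b) of the tower lemma.) -/
theorem quotient_rel (h : K ≤ M) :
    letI := relAlgebra h
    ∀ (N : Subgroup (M ≃ₐ[K] M)) [N.Normal],
    Limits.IsZero (groupCohomology ((Rep.ofAlgebraAutOnUnits K M).quotientToInvariants N) 1) ∧
    Nat.card (groupCohomology ((Rep.ofAlgebraAutOnUnits K M).quotientToInvariants N) 2) ∣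
      Nat.card ((M ≃ₐ[K] M) ⧸ N) := by
  letI := relAlgebra h
  haveI := finiteDimensional_rel h
  intro N _
  exact localClass_devissage (closed_localClass.quot _ _ (localClass_rel h) N)

/-- Restriction to any subgroup `H ≤ Gal(M/K)`: `H¹(H, Mˣ) = 0` and `|H²(H, Mˣ)|` divides `|H|`. -/
theorem res_rel (h : K ≤ M) :
    letI := relAlgebra h
    ∀ (H : Subgroup (M ≃ₐ[K] M)),
    Limits.IsZero (groupCohomology (Rep.res H.subtype (Rep.ofAlgebraAutOnUnits K M)) 1) ∧
    Nat.card (groupCohomology (Rep.res H.subtype (Rep.ofAlgebraAutOnUnits K M)) 2) ∣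
      Nat.card H := by
  letI := relAlgebra h
  haveI := finiteDimensional_rel h
  intro H
  exact localClass_devissage (closed_localClass.res _ _ (localClass_rel h) H)

/-- All sub-quotients `(H ⧸ N, (Mˣ)^N)`, `N ⊴ H ≤ Gal(M/K)`. -/
theorem subquotient_rel (h : K ≤ M) :
    letI := relAlgebra h
    ∀ (H : Subgroup (M ≃ₐ[K] M)) (N : Subgroup H) [N.Normal],
    Limits.IsZero (groupCohomology
      ((Rep.res H.subtype (Rep.ofAlgebraAutOnUnits K M)).quotientToInvariants N) 1) ∧
    Nat.card (groupCohomology
      ((Rep.res H.subtype (Rep.ofAlgebraAutOnUnits K M)).quotientToInvariants N) 2) ∣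
      Nat.card (H ⧸ N) := by
  letI := relAlgebra h
  haveI := finiteDimensional_rel h
  intro H N _
  exact localClass_devissage
    (closed_localClass.quot H _ (closed_localClass.res _ _ (localClass_rel h) H) N)

end Fermat.Agent.S55.LocDev51
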