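/-
S55 / 22b-LOC-DEV (helper51): absolute form of the LF q instance.  For `M : LocField17.LF q`
finite over `ℚ_[q]` (with its own `ℚ_[q]`-algebra structure as an intermediate field),
`Gal(M/ℚ_[q])` acting on `M` is a local G-field; hence so are all its sub-quotients
`(D ⧸ N, M^N)` (via `IsLocalGField.sub` / `.quot`), and the cyclic ones have norm index `|D ⧸ N|`.
-/
import Fermat.Agent.S55.LocDev51.LFInst

set_option autoImplicit false

namespace Fermat.Agent.S55.LocDev51

open CategoryTheory groupCohomology Rep Fermat.Agent.S55.LocField17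

attribute [local instance] Units.mulDistribMulActionRight

variable {q : ℕ} [Fact q.Prime] (M : LF q) [FiniteDimensional ℚ_[q] M]

/-- `Gal(M/ℚ_q)` acting on `M` is a local G-field. -/
theorem isLocalGField_base : IsLocalGField (M ≃ₐ[ℚ_[q]] M) M where
  finite := inferInstance
  faithful := inferInstance
  isometric := fun τ x => norm_algEquiv_self τ x
  ultrametric := inferInstance
  proper := inferInstance
  nontrivial := ⟨((q : ℕ) : M), by
    rw [norm_pos_iff]; exact natCast_q_ne_zero M, norm_natCast_q_lt_one M⟩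

attribute [local instance] quotAction

/-- Every sub-quotient `(D ⧸ N, M^N)` of `Gal(M/ℚ_q)` is a local G-field. -/
theorem isLocalGField_subquot (D : Subgroup (M ≃ₐ[ℚ_[q]] M)) (N : Subgroup D) [N.Normal] :
    IsLocalGField (D ⧸ N) (fixedField D M N) :=
  ((isLocalGField_base M).sub D).quot N

/-- Local norm index theorem for a cyclic sub-quotient `(D ⧸ N, M^N)`:
`[(M^D)ˣ : N (M^N)ˣ] = |D ⧸ N|`. -/
theorem relIndex_normUnits_subquot (D : Subgroup (M ≃ₐ[ℚ_[q]] M)) (N : Subgroup D) [N.Normal]
    [Fintype (D ⧸ N)] [IsCyclic (D ⧸ N)] :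
    (normUnits (D ⧸ N) (fixedField D M N)).relIndex (fixedUnits (D ⧸ N) (fixedField D M N)) =
      Nat.card (D ⧸ N) :=
  relIndex_normUnits_of_cyclic (isLocalGField_subquot M D N)

end Fermat.Agent.S55.LocDev51
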