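/-
S55 / 22-LOC-INV (helper51), transport half of the absolute case:
for `L ≤ M` finite normal extensions of `ℚ_q` inside `Ω = PadicAlgCl q`, `Q = Gal(M/ℚ_q)`,
`N = LocInv80.LFCore.fixSub Q L` (the elements fixing `L`):
`H^n(Q ⧸ N, (Mˣ)^N) ≅ H^n(Gal(L/ℚ_q), Lˣ)` (Mathlib's `Rep.ofAlgebraAutOnUnits ℚ_[q] L`), and
`|Q ⧸ N| = [L : ℚ_q]`.
-/
import Fermat.Agent.S55.LocDev51.LevelAdapt
import Fermat.Agent.S55.LocInv80.LFCore

set_option autoImplicit false

namespace Fermat.Agent.S55.LocDev51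

open CategoryTheory groupCohomology Rep
open Fermat.Agent.S55.LocField17 Fermat.Agent.S55.LocInv80.LFCore

attribute [local instance] Units.mulDistribMulActionRight

/-! ### generic: `unitsRep` of the Galois group is Mathlib's Galois module; invariance under
algebra isomorphisms -/

/-- For any field extension, `unitsRep (Gal(L/K)) L` is Mathlib's `Rep.ofAlgebraAutOnUnits K L`
(plain fields). -/
noncomputable def unitsRepIsoAlg (K L : Type) [Field K] [Field L] [Algebra K L] :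
    unitsRep (L ≃ₐ[K] L) L ≅ Rep.ofAlgebraAutOnUnits K L :=
  Rep.mkIso (Representation.Equiv.mk (LinearEquiv.refl ℤ _) (by
    intro g
    ext x
    rfl))

/-- the Galois cohomology of the units is invariant under isomorphisms of extensions. -/
noncomputable def galoisCohomologyIsoOfAlgEquiv {F A B : Type} [Field F] [Field A] [Field B]
    [Algebra F A] [Algebra F B] (a : A ≃ₐ[F] B) (n : ℕ) :
    groupCohomology (Rep.ofAlgebraAutOnUnits F A) n ≅
      groupCohomology (Rep.ofAlgebraAutOnUnits F B) n :=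
  (groupCohomology.functor ℤ _ n).mapIso (unitsRepIsoAlg F A).symm ≪≫
    cohomologyIsoOfEquiv (AlgEquiv.autCongr a) a.toRingEquiv (fun g x => by
      show a (g x) = (AlgEquiv.autCongr a g) (a x)
      simp) n ≪≫
    (groupCohomology.functor ℤ _ n).mapIso (unitsRepIsoAlg F B)

/-! ### the absolute layer -/

variable {q : ℕ} [Fact q.Prime] {L M : LF q} [FiniteDimensional ℚ_[q] M]
  [Normal ℚ_[q] M] [Normal ℚ_[q] L] (hLM : L ≤ M)

/-- `L` as an intermediate field of `M/ℚ_q`. -/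
noncomputable abbrev relL : IntermediateField ℚ_[q] M := IntermediateField.restrict hLM

instance normal_relL : Normal ℚ_[q] (relL hLM) :=
  Normal.of_algEquiv (IntermediateField.restrictAlgEquiv hLM)

lemma fixSub_eq_fixingSubgroup :
    fixSub (M := M) (M ≃ₐ[ℚ_[q]] M) L = (relL hLM).fixingSubgroup := by
  ext s
  rw [mem_fixSub, IntermediateField.mem_fixingSubgroup_iff]
  constructor
  · intro h x hx
    exact h x ((IntermediateField.mem_restrict hLM x).1 hx)
  · intro h x hx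
    exact h x ((IntermediateField.mem_restrict hLM x).2 hx)

lemma fixSub_eq_ker :
    fixSub (M := M) (M ≃ₐ[ℚ_[q]] M) L = (AlgEquiv.restrictNormalHom (F := ℚ_[q]) (relL hLM)).ker := by
  rw [fixSub_eq_fixingSubgroup hLM, IntermediateField.restrictNormalHom_ker]

include hLM in
/-- `fixSub Q L` is normal (as the kernel of the restriction). -/
theorem fixSub_normal_abs : (fixSub (M := M) (M ≃ₐ[ℚ_[q]] M) L).Normal := by
  rw [fixSub_eq_ker hLM]
  exact MonoidHom.normal_ker _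

variable [hN : (fixSub (M := M) (M ≃ₐ[ℚ_[q]] M) L).Normal]

/-- `Gal(M/ℚ_q) ⧸ Gal(M/L) ≃ Gal(L'/ℚ_q)`, `L' = L` inside `M`. -/
noncomputable def quotEquivRel :
    (M ≃ₐ[ℚ_[q]] M) ⧸ fixSub (M := M) (M ≃ₐ[ℚ_[q]] M) L ≃* (relL hLM ≃ₐ[ℚ_[q]] relL hLM) :=
  (QuotientGroup.quotientMulEquivOfEq (fixSub_eq_ker hLM)).trans
    (QuotientGroup.quotientKerEquivOfSurjective
      (AlgEquiv.restrictNormalHom (F := ℚ_[q]) (relL hLM))
      (AlgEquiv.restrictNormalHom_surjective M))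

lemma quotEquivRel_mk (s : M ≃ₐ[ℚ_[q]] M) :
    quotEquivRel hLM (QuotientGroup.mk s) = AlgEquiv.restrictNormalHom (relL hLM) s := rfl

lemma mem_fixedField_iff_mem_relL (x : M) :
    x ∈ fixedField (M ≃ₐ[ℚ_[q]] M) M (fixSub (M := M) (M ≃ₐ[ℚ_[q]] M) L) ↔ x ∈ relL hLM := by
  rw [mem_fixedField_iff]
  constructor
  · intro h
    have hgal : IsGalois ℚ_[q] M := {}
    rw [← IsGalois.fixedField_fixingSubgroup (relL hLM), IntermediateField.mem_fixedField_iff]
    intro s hs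
    exact h s ((fixSub_eq_fixingSubgroup hLM) ▸ hs)
  · intro hx n hn
    exact hn x ((IntermediateField.mem_restrict hLM x).1 hx)

/-- the fixed field of `fixSub Q L` is `L` (inside `M`). -/
noncomputable def fixedFieldEquivRel :
    fixedField (M ≃ₐ[ℚ_[q]] M) M (fixSub (M := M) (M ≃ₐ[ℚ_[q]] M) L) ≃+* relL hLM where
  toFun x := ⟨x.1, (mem_fixedField_iff_mem_relL hLM x.1).1 x.2⟩
  invFun y := ⟨y.1, (mem_fixedField_iff_mem_relL hLM y.1).2 y.2⟩
  left_inv _ := rfl
  right_inv _ := rfl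
  map_mul' _ _ := rfl
  map_add' _ _ := rfl

attribute [local instance] quotAction

lemma fixedFieldEquivRel_smul
    (g : (M ≃ₐ[ℚ_[q]] M) ⧸ fixSub (M := M) (M ≃ₐ[ℚ_[q]] M) L)
    (x : fixedField (M ≃ₐ[ℚ_[q]] M) M (fixSub (M := M) (M ≃ₐ[ℚ_[q]] M) L)) :
    fixedFieldEquivRel hLM (g • x) = quotEquivRel hLM g • fixedFieldEquivRel hLM x := by
  induction g using QuotientGroup.induction_on with
  | H s =>
    apply Subtype.ext
    rw [quotEquivRel_mk]
    exact (AlgEquiv.restrictNormal_commutes s (relL hLM) (fixedFieldEquivRel hLM x)).symm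

/-- **(N2-b)** `H^n(Gal(M/ℚ_q) ⧸ Gal(M/L), (Mˣ)^{Gal(M/L)}) ≅ H^n(Gal(L/ℚ_q), Lˣ)`. -/
noncomputable def absLayerIso (n : ℕ) :
    groupCohomology ((unitsRep (M ≃ₐ[ℚ_[q]] M) M).quotientToInvariants
      (fixSub (M := M) (M ≃ₐ[ℚ_[q]] M) L)) n ≅
    groupCohomology (Rep.ofAlgebraAutOnUnits ℚ_[q] L) n :=
  (groupCohomology.functor ℤ _ n).mapIso
      (quotIso (M ≃ₐ[ℚ_[q]] M) M (fixSub (M := M) (M ≃ₐ[ℚ_[q]] M) L)) ≪≫
    cohomologyIsoOfEquiv (quotEquivRel hLM) (fixedFieldEquivRel hLM)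
      (fixedFieldEquivRel_smul hLM) n ≪≫
    (groupCohomology.functor ℤ _ n).mapIso (unitsRepIsoAlg ℚ_[q] (relL hLM)) ≪≫
    (galoisCohomologyIsoOfAlgEquiv (IntermediateField.restrictAlgEquiv hLM) n).symm

include hLM in
/-- `[Gal(M/ℚ_q) : Gal(M/L)] = [L : ℚ_q]`. -/
theorem card_quot_fixSub_abs :
    Nat.card ((M ≃ₐ[ℚ_[q]] M) ⧸ fixSub (M := M) (M ≃ₐ[ℚ_[q]] M) L) =
      Module.finrank ℚ_[q] L := by
  have hgal : IsGalois ℚ_[q] (relL hLM) := {}
  rw [Nat.card_congr (quotEquivRel hLM).toEquiv, IsGalois.card_aut_eq_finrank]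
  exact (LinearEquiv.finrank_eq (IntermediateField.restrictAlgEquiv hLM).toLinearEquiv).symm

end Fermat.Agent.S55.LocDev51
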