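/-
S55 / 22g-LEVEL-ADAPT (helper51): the level adapter in helper71's literal consumer shape
`P2Local71.LayerAdapt q`, and the resulting reduction of P2 (`Contract34.LocalRightExact p q`) to
ONE arithmetic Prop: `P2Local71.AbsClass' q` — for every finite Galois `E/ℚ_q` inside `PadicAlgCl q`
a class of `H²(Gal(E/ℚ_q), Eˣ)` whose order is divisible by `[E : ℚ_q]`.
-/
import Fermat.Agent.S55.P2Local71.Layer
import Fermat.Agent.S55.LocDev51.LevelAdapt

set_option autoImplicit false

namespace Fermat.Agent.S55.LocDev51

open Fermat.Agent.S55.P2Local71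

/-- **22g**: the level adapter, literally `P2Local71.LayerAdapt q`. -/
theorem layerAdapt (q : ℕ) [Fact q.Prime] : LayerAdapt q :=
  fun V hV U hU => exists_layer_adapt V hV U hU

/-- **P2 from one class of full order** (unitsRep form). -/
theorem localRightExact_of_absClass (p : ℕ) [Fact p.Prime] (q : Nat.Primes)
    (hC : @AbsClass (q : ℕ) ⟨q.2⟩) : Contract34.LocalRightExact p q :=
  localRightExact_of_adapt_absClass p q (@layerAdapt (q : ℕ) ⟨q.2⟩) hC

/-- **P2 from one class of full order** (Mathlib `Rep.ofAlgebraAutOnUnits` form). -/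
theorem localRightExact_of_absClass' (p : ℕ) [Fact p.Prime] (q : Nat.Primes)
    (hC : @AbsClass' (q : ℕ) ⟨q.2⟩) : Contract34.LocalRightExact p q :=
  localRightExact_of_absClass p q (@absClass_of_absClass' (q : ℕ) ⟨q.2⟩ hC)

end Fermat.Agent.S55.LocDev51
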