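/-
S55 / 22-LOC-INV, the ABSOLUTE case (helper51, on top of helper80's `LocInv80.LFGen.step_LF_gen`):
for every finite Galois `E/ℚ_q` inside `Ω = PadicAlgCl q`, `H²(Gal(E/ℚ_q), Eˣ)` (Mathlib's
`Rep.ofAlgebraAutOnUnits ℚ_[q] E`) contains a class of order `[E : ℚ_q]`.
This is `P2Local71.AbsClass' q`; hence P2 = `Contract34.LocalRightExact p q` unconditionally.
-/
import Fermat.Agent.S55.LocDev51.AbsLayer
import Fermat.Agent.S55.LocDev51.LayerAdaptP2
import Fermat.Agent.S55.LocInv80.LFGen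
import Fermat.Agent.S55.LocInv80.LF

set_option autoImplicit false

namespace Fermat.Agent.S55.LocDev51

open CategoryTheory groupCohomology Rep
open Fermat.Agent.S55.LocField17 Fermat.Agent.S55.LocInv80.LFCore Fermat.Agent.S55.LocInv80
open Fermat.Agent.S55.UnrExt93

attribute [local instance] Units.mulDistribMulActionRight

variable {q : ℕ} [Fact q.Prime]

local instance : Normal ℚ_[q] (PadicAlgCl q) := IsAlgClosure.normal ℚ_[q] (PadicAlgCl q)

/-- degrees over a base field of degree one are degrees over `ℚ_q`. -/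
theorem finrank_rel_of_finrank_one {K X : LF q} (h : K ≤ X)
    (h1 : Module.finrank ℚ_[q] K = 1) :
    letI := relAlgebra h
    Module.finrank K X = Module.finrank ℚ_[q] X := by
  letI := relAlgebra h
  haveI : IsScalarTower ℚ_[q] K X := IsScalarTower.of_algebraMap_eq (fun _ => rfl)
  have h2 := Module.finrank_mul_finrank ℚ_[q] K X
  rw [h1, one_mul] at h2
  exact h2

/-- degrees over the bottom field `⊥ : LF q` are degrees over `ℚ_q`. -/
theorem finrank_bot_rel (X : LF q) :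
    letI := relAlgebra (bot_le : (⊥ : LF q) ≤ X)
    Module.finrank (⊥ : LF q) X = Module.finrank ℚ_[q] X :=
  finrank_rel_of_finrank_one bot_le IntermediateField.finrank_bot

section Abs

variable (E : LF q) [FiniteDimensional ℚ_[q] E] [Normal ℚ_[q] E]

/-- `⊥ ≤ E`. -/
abbrev hbot : (⊥ : LF q) ≤ E := bot_le

lemma stable_of_normal : ∀ σ ∈ (⊥ : LF q).fixingSubgroup, ∀ x ∈ E, σ x ∈ E := by
  intro σ _ x hx
  have h := (IntermediateField.normal_iff_forall_map_le'.1 (inferInstance : Normal ℚ_[q] E)) σ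
  exact h ⟨x, hx, rfl⟩

/-- the big field `M = E · (ℚ_q)_n`, `n = [E : ℚ_q]`. -/
noncomputable abbrev bigAbs : LF q := bigField (hbot E)

instance normal_bigAbs : Normal ℚ_[q] (bigAbs E) := by
  rw [IntermediateField.normal_iff_forall_map_le']
  rintro σ _ ⟨x, hx, rfl⟩
  exact LF.stable_big (hbot E) (stable_of_normal E) σ
    (by rw [IntermediateField.fixingSubgroup_bot]; trivial) x hx

/-- the restriction `Gal(Ω/ℚ_q) → Gal(M/ℚ_q)` on the fixing subgroup of `⊥`. -/
noncomputable def resAbs : (⊥ : LF q).fixingSubgroup →* (bigAbs E ≃ₐ[ℚ_[q]] bigAbs E) :=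
  (AlgEquiv.restrictNormalHom (bigAbs E)).comp (Subgroup.subtype _)

lemma resAbs_apply (σ : (⊥ : LF q).fixingSubgroup) (x : bigAbs E) :
    ((resAbs E σ • x : bigAbs E) : PadicAlgCl q) =
      (σ : PadicAlgCl q ≃ₐ[ℚ_[q]] PadicAlgCl q) x :=
  AlgEquiv.restrictNormal_commutes _ (bigAbs E) x

lemma resAbs_surjective : Function.Surjective (resAbs E) := by
  intro τ
  obtain ⟨σ, hσ⟩ := AlgEquiv.restrictNormalHom_surjective (F := ℚ_[q]) (K₁ := bigAbs E)
    (PadicAlgCl q) τ
  exact ⟨⟨σ, by rw [IntermediateField.fixingSubgroup_bot]; trivial⟩, hσ⟩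

lemma card_galAbs :
    Nat.card (bigAbs E ≃ₐ[ℚ_[q]] bigAbs E) = deg (hbot E) * ramIdx (hbot E) := by
  haveI : IsGalois ℚ_[q] (bigAbs E) := {}
  rw [IsGalois.card_aut_eq_finrank]
  exact (finrank_bot_rel (bigAbs E)).symm.trans (LF.finrank_big (hbot E))

lemma deg_eq_finrank : deg (hbot E) = Module.finrank ℚ_[q] E := by
  exact (finrank_rel_eq (hbot E)).symm.trans (finrank_bot_rel E)

instance normal_fixSub_E :
    (fixSub (M := bigAbs E) (bigAbs E ≃ₐ[ℚ_[q]] bigAbs E) E).Normal :=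
  LF.fixSub_normal (resAbs E) (resAbs_apply E) (resAbs_surjective E) E (stable_of_normal E)

instance normal_fixSub_unrAbs :
    (fixSub (M := bigAbs E) (bigAbs E ≃ₐ[ℚ_[q]] bigAbs E)
      (unr q (⊥ : LF q) (deg (hbot E)))).Normal :=
  LF.fixSub_normal (resAbs E) (resAbs_apply E) (resAbs_surjective E) _
    (fun σ hσ _ hx => stable (K := (⊥ : LF q)) (deg (hbot E)) σ hσ hx)

/-- **the absolute lower bound**: a class of order `[E : ℚ_q]` in `H²(Gal(E/ℚ_q), Eˣ)`, which
generates. -/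
theorem exists_class_abs :
    ∃ x : groupCohomology (Rep.ofAlgebraAutOnUnits ℚ_[q] E) 2,
      addOrderOf x = Module.finrank ℚ_[q] E ∧ ∀ y, ∃ j : ℤ, y = j • x := by
  obtain ⟨γ, hord, hgen, -, -⟩ := LFGen.step_LF_gen (hbot E) (resAbs E)
    (isLocalGField_base (bigAbs E)) (resAbs_apply E) (resAbs_surjective E) (card_galAbs E)
  let Φ := (absLayerIso (L := E) (M := bigAbs E) (le_bigField (hbot E)) 2).toLinearEquiv
  refine ⟨Φ γ, ?_, fun y => ?_⟩
  · rw [show addOrderOf (Φ γ) = addOrderOf γ from AddEquiv.addOrderOf_eq Φ.toAddEquiv γ, hord,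
      deg_eq_finrank]
  · obtain ⟨j, hj⟩ := hgen (Φ.symm y)
    refine ⟨j, ?_⟩
    rw [← map_zsmul, ← hj, LinearEquiv.apply_symm_apply]

end Abs

/-- **`P2Local71.AbsClass' q` holds.** -/
theorem absClass' (q : ℕ) [Fact q.Prime] : P2Local71.AbsClass' q := by
  intro E _ _
  obtain ⟨x, hx, -⟩ := exists_class_abs E
  exact ⟨x, hx ▸ dvd_rfl⟩

/-- **P2, unconditionally**: `H²(G_{ℚ_q}, -)` is right exact on finite `p`-torsion modules. -/
theorem localRightExact (p : ℕ) [Fact p.Prime] (q : Nat.Primes) :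
    Contract34.LocalRightExact p q :=
  localRightExact_of_absClass' p q (@absClass' (q : ℕ) ⟨q.2⟩)

end Fermat.Agent.S55.LocDev51
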