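/-
S55 / 22h (helper51): `pres` for the local invariant, CLASS-LEVEL route.

`K` finite over `ℚ_q` inside `Ω = PadicAlgCl q`, `G_K = ↥K.fixingSubgroup`, `A_K = Ωˣ`.
Every class of the level cohomology `(levelsK K).H2 (AK K)` is a Frobenius carry class
`cls n a` (`a ∈ Kˣ`): the class lives on a layer `G_K ⧸ G_L`; by helper80's `LFCore.step_LF`
(model `Q = G_K ⧸ G_M`, `M = L · K_n`, `n = [L : K]`) and helper66's double-quotient lemma it comes
from the cyclic layer `G_K ⧸ G_{K_n}`, where every class is a carry class (helper54's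
`CyclicCarry`), and carry classes inflate to carry classes (helper49's `LevelColim49.Carry`).
-/
import Fermat.Agent.S55.LocDev51.LFInst
import Fermat.Agent.S55.LocInv80.LF
import Fermat.Agent.S55.LocInv28.Main
import Fermat.Agent.S55.DoubleQuot66
import Fermat.Agent.S55.LevelColim49.Carry
import Fermat.Agent.S55.IdeleCoh54.CyclicCarry
import Fermat.Agent.S55.KummerBr95.BrBound28

set_option autoImplicit false
set_option linter.style.haveILetI false
set_option linter.unusedSectionVars false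

namespace Fermat.Agent.S55.LocDev51.Pres

open CategoryTheory groupCohomology Rep
open Fermat.Agent.S55.LocField17 Fermat.Agent.S55.LocInv80.LFCore Fermat.Agent.S55.LocInv80
open Fermat.Agent.S55.UnrExt93 Fermat.Agent.S55.Profin15 Fermat.Agent.S55.GlobalInv91
open Fermat.Agent.S55.LocInv28.Abstract Fermat.Agent.S55.LocInv28.Padic
open Fermat.Agent.S55.LocInv28.FrobChar Fermat.Agent.S55.LocInv28.Main
open Fermat.Agent.S55.LevelColim49 Fermat.Agent.S55.LocDev51

attribute [local instance] Units.mulDistribMulActionRight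

variable {q : ℕ} [Fact q.Prime]

/-! ### the quotient model `Q = G_K ⧸ G_M` of `Gal(M/K)` -/

/-- `K ≤ M` and `M` is stable under `Gal(Ω/K)`. -/
class StablePair (K M : LF q) : Prop where
  le : K ≤ M
  stable : ∀ σ ∈ K.fixingSubgroup, ∀ x ∈ M, σ x ∈ M

/-- the subgroup `G_M ∩ G_K` of `G_K`. -/
noncomputable def lvl (K M : LF q) : Subgroup (GK K) := M.fixingSubgroup.subgroupOf K.fixingSubgroup

lemma mem_lvl {K M : LF q} {s : GK K} :
    s ∈ lvl K M ↔ (s : PadicAlgCl q ≃ₐ[ℚ_[q]] PadicAlgCl q) ∈ M.fixingSubgroup := Iff.rfl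

section Model

variable (K M : LF q) [hKM : StablePair K M]

/-- `Gal(M/K)` for the `K`-algebra structure `relAlgebra`. -/
abbrev GalRel : Type :=
  @AlgEquiv K M M _ _ _ (relAlgebra hKM.le) (relAlgebra hKM.le)

/-- restriction `G_K → Gal(M/K)`. -/
noncomputable abbrev resRel : GK K →* GalRel K M := LF.resGal hKM.le hKM.stable

lemma resRel_apply (σ : GK K) (x : M) :
    ((resRel K M σ x : M) : PadicAlgCl q) = (σ : PadicAlgCl q ≃ₐ[ℚ_[q]] PadicAlgCl q) x := rfl

lemma ker_resRel : (resRel K M).ker = lvl K M := by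
  letI := relAlgebra hKM.le
  ext s
  rw [MonoidHom.mem_ker, mem_lvl, IntermediateField.mem_fixingSubgroup_iff]
  constructor
  · intro h x hx
    have h1 := DFunLike.congr_fun h (⟨x, hx⟩ : M)
    exact congrArg Subtype.val h1
  · intro h
    apply AlgEquiv.ext
    intro x
    exact Subtype.ext (h x x.2)

instance lvl_normal : (lvl K M).Normal := by
  rw [← ker_resRel K M]
  infer_instance

/-- `G_K ⧸ G_M ≃ Gal(M/K)`. -/
noncomputable def quotEquivGal : GK K ⧸ lvl K M ≃* GalRel K M :=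
  (QuotientGroup.quotientMulEquivOfEq (ker_resRel K M).symm).trans
    (QuotientGroup.quotientKerEquivOfSurjective (resRel K M)
      (LF.resGal_surjective hKM.le hKM.stable))

lemma quotEquivGal_mk (σ : GK K) :
    quotEquivGal K M (QuotientGroup.mk σ) = resRel K M σ := rfl

/-- the action of `G_K ⧸ G_M` on `M`. -/
noncomputable instance quotActM : MulSemiringAction (GK K ⧸ lvl K M) M :=
  MulSemiringAction.compHom M (quotEquivGal K M).toMonoidHom

lemma coe_mk_smul (σ : GK K) (x : M) :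
    (((QuotientGroup.mk σ : GK K ⧸ lvl K M) • x : M) : PadicAlgCl q) =
      (σ : PadicAlgCl q ≃ₐ[ℚ_[q]] PadicAlgCl q) x := rfl

lemma coe_mk'_smul (σ : GK K) (x : M) :
    (((QuotientGroup.mk' (lvl K M) σ : GK K ⧸ lvl K M) • x : M) : PadicAlgCl q) =
      (σ : PadicAlgCl q ≃ₐ[ℚ_[q]] PadicAlgCl q) x := rfl

/-- transport of a local G-field along a group isomorphism. -/
theorem isLocalGField_of_mulEquiv {Q Q' E : Type} [Group Q] [Group Q'] [NormedField E]
    [MulSemiringAction Q E] (h : IsLocalGField Q E) (e : Q' ≃* Q) :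
    @IsLocalGField Q' E _ _ (MulSemiringAction.compHom E e.toMonoidHom) := by
  letI : MulSemiringAction Q' E := MulSemiringAction.compHom E e.toMonoidHom
  exact
    { finite := by
        haveI := h.finite
        exact Finite.of_equiv Q e.symm.toEquiv
      faithful := ⟨fun {a b} hab => by
        haveI := h.faithful
        apply e.injective
        exact FaithfulSMul.eq_of_smul_eq_smul (α := E) fun x => hab x⟩
      isometric := fun a x => h.isometric (e a) x
      ultrametric := h.ultrametric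
      proper := h.proper
      nontrivial := h.nontrivial }

variable [FiniteDimensional ℚ_[q] M]

theorem isLocalGField_quotM : IsLocalGField (GK K ⧸ lvl K M) M :=
  isLocalGField_of_mulEquiv (isLocalGField_rel hKM.le) (quotEquivGal K M)

theorem card_quotM : Nat.card (GK K ⧸ lvl K M) = Nat.card (GalRel K M) :=
  Nat.card_congr (quotEquivGal K M).toEquiv

/-- `Gal(M/F)` inside `G_K ⧸ G_M` is the image of `G_F ∩ G_K`. -/
lemma mk_mem_fixSub_iff (F : LF q) (hFM : F ≤ M) (σ : GK K) :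
    (QuotientGroup.mk σ : GK K ⧸ lvl K M) ∈ fixSub (M := M) (GK K ⧸ lvl K M) F ↔
      (σ : PadicAlgCl q ≃ₐ[ℚ_[q]] PadicAlgCl q) ∈ F.fixingSubgroup := by
  rw [mem_fixSub, IntermediateField.mem_fixingSubgroup_iff]
  constructor
  · intro h x hx
    have h1 := h ⟨x, hFM hx⟩ hx
    exact congrArg Subtype.val h1
  · intro h x hx
    exact Subtype.ext (h x hx)

/-! ### the layer of `Ωˣ` at `G_M` is `Mˣ` -/

omit [FiniteDimensional ℚ_[q] M] in
lemma valΩ_mem_of_invariant (a : AK K)
    (ha : a ∈ Representation.invariants ((AK K).ρ.comp (lvl K M).subtype)) : valΩ K a ∈ M :=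
  mem_of_fixed fun s hs => by
    have hsK : s ∈ K.fixingSubgroup := IntermediateField.fixingSubgroup_antitone hKM.le hs
    exact (ρ_eq_iff K ⟨s, hsK⟩ a).1 (ha ⟨⟨s, hsK⟩, hs⟩)

omit [FiniteDimensional ℚ_[q] M] in
lemma ofΩ_mem_invariants (x : M) (hx : (x : PadicAlgCl q) ≠ 0) :
    ofΩ K (x : PadicAlgCl q) hx ∈
      Representation.invariants ((AK K).ρ.comp (lvl K M).subtype) := fun s => by
  refine (ρ_eq_iff K (s : GK K) _).2 ?_
  rw [valΩ_ofΩ]
  exact (IntermediateField.mem_fixingSubgroup_iff _ _).1 (mem_lvl.1 s.2) _ x.2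

omit [FiniteDimensional ℚ_[q] M] in
/-- `Mˣ ≃ (Ωˣ)^{G_M}`, additively. -/
noncomputable def layerAddEquivM :
    unitsRep (GK K ⧸ lvl K M) M ≃+ layer (AK K) (lvl K M) where
  toFun u := ⟨ofΩ K (((toU u : (↥M)ˣ) : M) : PadicAlgCl q) (by simp),
    ofΩ_mem_invariants K M _ _⟩
  invFun a := ofU (Units.mk0 (⟨valΩ K a.1, valΩ_mem_of_invariant K M a.1 a.2⟩ : M) (by
    intro h
    exact valΩ_ne_zero K a.1 (congrArg Subtype.val h)))
  left_inv u := by
    apply toU_injective
    ext
    rfl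
  right_inv a := by
    apply Subtype.ext
    apply valΩ_injective K
    rfl
  map_add' u v := by
    apply Subtype.ext
    apply valΩ_injective K
    rfl

omit [FiniteDimensional ℚ_[q] M] in
/-- `Mˣ ≅ (Ωˣ)^{G_M}` as representations of `G_K ⧸ G_M`. -/
noncomputable def layerIsoM : unitsRep (GK K ⧸ lvl K M) M ≅ layer (AK K) (lvl K M) :=
  Rep.mkIso (Representation.Equiv.mk (layerAddEquivM K M).toIntLinearEquiv (by
    intro g
    induction g using QuotientGroup.induction_on with
    | H σ =>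
      ext x
      apply valΩ_injective K
      rfl))

end Model

/-! ### the cyclic layer `G_K ⧸ G_{K_n}` -/

section Cyclic

variable (K : LF q) [FiniteDimensional ℚ_[q] K]

/-- every class of the cyclic layer `G_K ⧸ ker χ_{K,n}` is a carry class of the Frobenius
character. -/
theorem carryH2_kerLift_surjective (n : ℕ+) :
    Function.Surjective (carryH2 (layer (AK K) (chi K n).ker) (QuotientGroup.kerLift (chi K n))) := by
  obtain ⟨s₀, hs₀, -⟩ := exists_frobElt K n
  set χ := QuotientGroup.kerLift (chi K n) with hχ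
  have hinj : Function.Injective χ := QuotientGroup.kerLift_injective (chi K n)
  set g₀ : GK K ⧸ (chi K n).ker := QuotientGroup.mk s₀ with hg₀
  have hs : chiVal χ g₀ = 1 := hs₀
  have hpow : ∀ i : ℕ, chiVal χ (g₀ ^ i) = (i : ZMod n) := fun i => chiVal_pow hs i
  have hgn : g₀ ^ (n : ℕ) = 1 := by
    apply hinj
    apply Multiplicative.toAdd.injective
    show chiVal χ (g₀ ^ (n : ℕ)) = chiVal χ 1
    rw [hpow, chiVal_one, ZMod.natCast_self]
  have hg : ∀ x : GK K ⧸ (chi K n).ker, x ∈ Subgroup.zpowers g₀ := fun x => by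
    refine ⟨((chiVal χ x).val : ℤ), ?_⟩
    show g₀ ^ (((chiVal χ x).val : ℕ) : ℤ) = x
    rw [zpow_natCast]
    apply hinj
    apply Multiplicative.toAdd.injective
    show chiVal χ (g₀ ^ (chiVal χ x).val) = chiVal χ x
    rw [hpow, ZMod.natCast_zmod_val]
  exact IdeleCoh54.CyclicCarry.carryH2_surjective (layer (AK K) (chi K n).ker) (χ := χ) (g := g₀)
    hg hgn hs

end Cyclic

/-! ### `pres` -/

section Main

variable (K : LF q) [FiniteDimensional ℚ_[q] K]

omit [FiniteDimensional ℚ_[q] K] in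
theorem isSmooth_AK : (levelsK K).IsSmooth (AK K) := fun m => by
  obtain ⟨U, hU, h⟩ := (goodLevels_levelsK K).smooth (valΩ K m)
  exact ⟨U, hU, fun s hs => (ρ_eq_iff K s m).2 (h s hs)⟩

omit [FiniteDimensional ℚ_[q] K] in
/-- a field whose fixing subgroup is normal is stable under `Gal(Ω/ℚ_q)`. -/
lemma stable_of_normal_fixingSubgroup (E : LF q) (hn : E.fixingSubgroup.Normal)
    (σ : PadicAlgCl q ≃ₐ[ℚ_[q]] PadicAlgCl q) {x : PadicAlgCl q} (hx : x ∈ E) : σ x ∈ E := by
  refine mem_of_fixed (K := E) fun s hs => ?_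
  have h1 : σ⁻¹ * s * σ ∈ E.fixingSubgroup := by
    have := hn.conj_mem s hs σ⁻¹
    rwa [inv_inv] at this
  have h2 := (IntermediateField.mem_fixingSubgroup_iff _ _).1 h1 x hx
  have h3 : σ ((σ⁻¹ * s * σ) x) = s (σ x) := by
    show σ (σ⁻¹ (s (σ x))) = s (σ x)
    exact AlgEquiv.apply_symm_apply σ _
  rw [← h3, h2]

/-- **`pres`**: every class of `Br(K) = H²(G_K, Ωˣ)` (level cohomology for the Krull levels) is a
Frobenius carry class `[δχ_{K,n} ∪ a]`, `a ∈ Kˣ`. -/
theorem pres_levelsK (x : (levelsK K).H2 (AK K)) :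
    ∃ (n : ℕ+) (a : invts (AK K)),
      x = (padicDatum K (levelsK K) (goodLevels_levelsK K)).cls n a := by
  obtain ⟨U₀, hU₀⟩ := (levelsK K).nonempty
  obtain ⟨W, hWn, hW, -, y₁, rfl⟩ := exists_infl₂_eq (levelsK K) (isSmooth_AK K) x hU₀
  obtain ⟨E, hE, hEn, hEW⟩ := exists_field_of_level K hW
  haveI := hE
  haveI := hWn
  -- `L = E · K`
  have hKL : K ≤ E ⊔ K := le_sup_right
  haveI : FiniteDimensional ℚ_[q] (E ⊔ K : LF q) := IntermediateField.finiteDimensional_sup E K
  have hstL : ∀ σ ∈ K.fixingSubgroup, ∀ x ∈ (E ⊔ K : LF q), σ x ∈ (E ⊔ K : LF q) := by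
    intro σ hσ x hx
    have hle : (E ⊔ K : LF q) ≤
        (E ⊔ K : LF q).comap (σ : PadicAlgCl q →ₐ[ℚ_[q]] PadicAlgCl q) := by
      refine sup_le ?_ ?_
      · intro y hy
        show σ y ∈ (E ⊔ K : LF q)
        exact (le_sup_left : E ≤ E ⊔ K) (stable_of_normal_fixingSubgroup E hEn σ hy)
      · intro y hy
        show σ y ∈ (E ⊔ K : LF q)
        rw [(IntermediateField.mem_fixingSubgroup_iff _ _).1 hσ y hy]
        exact (le_sup_right : K ≤ E ⊔ K) hy
    exact hle hx
  have hWL : ∀ s : GK K, s ∈ W ↔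
      (s : PadicAlgCl q ≃ₐ[ℚ_[q]] PadicAlgCl q) ∈ (E ⊔ K : LF q).fixingSubgroup := fun s => by
    rw [hEW s, IntermediateField.fixingSubgroup_sup, Subgroup.mem_inf]
    exact ⟨fun h => ⟨h, s.2⟩, fun h => h.1⟩
  -- the big field and the quotient model
  set n : ℕ+ := ⟨deg hKL, deg_pos hKL⟩ with hn
  haveI hSP : StablePair K (bigField hKL) := ⟨LF.le_big hKL, LF.stable_big hKL hstL⟩
  have hr : ∀ (σ : GK K) (x : bigField hKL),
      ((QuotientGroup.mk' (lvl K (bigField hKL)) σ • x : bigField hKL) : PadicAlgCl q) =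
        (σ : PadicAlgCl q ≃ₐ[ℚ_[q]] PadicAlgCl q) x := fun σ x => rfl
  have hsurj : Function.Surjective (QuotientGroup.mk' (lvl K (bigField hKL))) :=
    QuotientGroup.mk'_surjective _
  haveI hN₁ : (fixSub (M := bigField hKL) (GK K ⧸ lvl K (bigField hKL)) (E ⊔ K)).Normal :=
    LF.fixSub_normal (QuotientGroup.mk' (lvl K (bigField hKL))) hr hsurj (E ⊔ K) hstL
  haveI hN₂ : (fixSub (M := bigField hKL) (GK K ⧸ lvl K (bigField hKL))
      (unr q K (deg hKL))).Normal :=
    LF.fixSub_normal (QuotientGroup.mk' (lvl K (bigField hKL))) hr hsurj _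
      (fun σ hσ _ hx => stable (K := K) (deg hKL) σ hσ hx)
  have hcard : Nat.card (GK K ⧸ lvl K (bigField hKL)) = deg hKL * ramIdx hKL :=
    (card_quotM K (bigField hKL)).trans (LF.card_galBig hKL hstL)
  obtain ⟨-, ψ, hψ⟩ := step_LF hKL (QuotientGroup.mk' (lvl K (bigField hKL)))
    (isLocalGField_quotM K (bigField hKL)) hr hsurj hcard
  have hmem₁ : ∀ g : GK K, (g : GK K ⧸ lvl K (bigField hKL)) ∈
      fixSub (M := bigField hKL) (GK K ⧸ lvl K (bigField hKL)) (E ⊔ K) ↔ g ∈ W := fun g =>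
    (mk_mem_fixSub_iff K (bigField hKL) (E ⊔ K) (le_bigField hKL) g).trans (hWL g).symm
  have hmem₂ : ∀ g : GK K, (g : GK K ⧸ lvl K (bigField hKL)) ∈
      fixSub (M := bigField hKL) (GK K ⧸ lvl K (bigField hKL)) (unr q K (deg hKL)) ↔
        g ∈ (chi K n).ker := fun g =>
    (mk_mem_fixSub_iff K (bigField hKL) _ (unr_le_bigField hKL) g).trans
      ((chi_eq_one_iff_mem K n g).symm.trans MonoidHom.mem_ker.symm)
  have hV₁ : lvl K (bigField hKL) ≤ W := DoubleQuot66.le_of_mem_iff hmem₁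
  have hV₂ : lvl K (bigField hKL) ≤ (chi K n).ker := DoubleQuot66.le_of_mem_iff hmem₂
  have h := DoubleQuot66.exists_infl_eq_of_iso (layerIsoM K (bigField hKL))
    (N₁ := fixSub (M := bigField hKL) (GK K ⧸ lvl K (bigField hKL)) (E ⊔ K))
    (N₂ := fixSub (M := bigField hKL) (GK K ⧸ lvl K (bigField hKL)) (unr q K (deg hKL)))
    (fun y => ⟨ψ.symm y, by rw [← hψ, LinearEquiv.apply_symm_apply]⟩)
  obtain ⟨y₂, hy₂⟩ := DoubleQuot66.exists_trans₂_eq (AK K) hmem₁ hmem₂ hV₁ hV₂ h y₁
  obtain ⟨a', rfl⟩ := carryH2_kerLift_surjective K n y₂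
  -- a level below `G_M`
  obtain ⟨U', hU', hU'M⟩ := exists_level_le K (bigField hKL)
  haveI := (levelsK K).normal U' hU'
  have hU'V : U' ≤ lvl K (bigField hKL) := fun s hs => mem_lvl.2 (hU'M s hs)
  set a : (AK K).ρ.invariants := ofLayerInv (AK K) (chi K n).ker a' with ha
  have ha' : a' = toLayerInv (AK K) (chi K n).ker a := rfl
  refine ⟨n, ⟨a.1, a.2⟩, ?_⟩
  rw [← infl₂_trans₂ (AK K) (levelsK K) hW hU' (hU'V.trans hV₁),
    ← trans₂_trans₂ (AK K) hV₁ hU'V, hy₂, trans₂_trans₂, ha', trans₂_carryH2,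
    infl₂_carryH2 (AK K) (levelsK K) hU' _ a (carry_comp_mk_mem_Z₂ (AK K) (levelsK K) hU' _ a),
    InvDatum.cls_apply]
  congr 1

/-- the padic datum on the Krull levels computes `Br(K)`: the local invariant exists. -/
theorem isLocalInv_levelsK :
    IsLocalInv (levelsK K) (AK K) (padicDatum K (levelsK K) (goodLevels_levelsK K)) :=
  isLocalInv_of_pres K (levelsK K) (goodLevels_levelsK K) (pres_levelsK K)

/-- helper28's cochain form of `pres`, derived back from the class form. -/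
theorem presCochain : PresCochain K := by
  intro L hL hKL hstL c hc hconst
  haveI := hL
  obtain ⟨U, hU, hUL⟩ := exists_level_le K L
  have hcZ : c ∈ (levelsK K).Z₂ (AK K) :=
    ⟨hc, U, hU, fun g g' s s' hs hs' => hconst g g' s s' (hUL s hs) (hUL s' hs')⟩
  obtain ⟨n, a, hna⟩ := pres_levelsK K ((levelsK K).H2π (AK K) ⟨c, hcZ⟩)
  rw [InvDatum.cls_apply, ← sub_eq_zero, ← map_sub, LevelStr.H2π_eq_zero_iff,
    LevelStr.mem_B₂_iff] at hna
  obtain ⟨y, ⟨U', hU', hyU'⟩, hdy⟩ := hna
  obtain ⟨E, hE, -, hEU'⟩ := exists_field_of_level K hU'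
  refine ⟨n, (a : AK K), y, E, hE, fun g => a.2 g, fun g s hs => hyU' g s ((hEU' s).2 hs), ?_⟩
  have h1 : (d₁₂ (AK K)).hom y = c - carry (AK K) (chi K n) (a : AK K) := hdy
  rw [h1]
  abel

end Main

/-! ### consequences: `|Br(K)[p]| ≤ p` and (P5) -/

section Consequences

open Fermat.Agent.S55.KummerBr95

/-- helper95's `LocalPres q` (the input of `BrBound28`). -/
theorem localPres (q : Nat.Primes) : LocalPres q := by
  haveI : Fact (q : ℕ).Prime := ⟨q.2⟩
  intro K hK x
  exact pres_levelsK K x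

/-- `|Br(K)[p]| ≤ p` for every finite `K/ℚ_q`. -/
theorem brTorsionBound (q : Nat.Primes) (p : ℕ) [Fact p.Prime] : BrTorsionBound q p :=
  brTorsionBound_of_localPres q p (localPres q)

/-- **(P5)** `Contract34.LocalDim p S`, unconditionally. -/
theorem localDim (p : ℕ) [Fact p.Prime] (S : Finset Nat.Primes) : Contract34.LocalDim p S :=
  localDim_of_localPres p S fun q _ => localPres q

end Consequences

end Fermat.Agent.S55.LocDev51.Pres
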